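import Mathlib
import Fermat.Prelude.Def_ModularCurve_PeriodMap
import Fermat.Agent.X0.Mod.QuotientCounts

/-!
# X0 / ES / E2: the dimension of the space of parabolic homomorphisms `Γ₀(N) → K`

For a finite transitive `SL(2, ℤ)`-set `X` with base point `x0` and `Γ = Stab(x0)`, every additive
character `φ : Γ → K` (char `K = 0`) induces (Shapiro, through a section `s : X → SL(2, ℤ)`) a
cocycle `c : SL(2, ℤ) → (X → K)`; `(φ, m) ↦ (c(S) + (S-1)m, c(U) + (U-1)m)` is injective modulo the
constants, the orbit sums of `c(S)`, `c(U)` (and of `c(T) = S⁻¹(c(U) - c(S))` when `φ` is parabolic)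
vanish, and a duality argument bounds the dimension of the space of such pairs.  Result
(`finrank_parabolicHoms_add_le`): `dim Hom_par(Γ, K) + c(S) + c(ST) + c(T) ≤ |X| + 2`
where `c(g)` is the number of cycles of `g` on `X`; for `Γ₀(N)`
(`finrank_parabolicHoms_Gamma0_le`): `dim ≤ 2 * genusFormula N`.
-/

set_option autoImplicit false

open Module MulAction

namespace Fermat.Agent.X0.PD

noncomputable section

open scoped Classical

variable {G X k : Type*} [Group G] [MulAction G X] [Field k]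

/-- The set of cycles (orbits) of `g` on `X`. -/
abbrev Orb (X : Type*) [MulAction G X] (g : G) : Type _ :=
  MulAction.orbitRel.Quotient (Subgroup.zpowers g) X

/-- the class of a point -/
def Orb.mk (g : G) (x : X) : Orb X g := Quotient.mk'' x

theorem Orb.mk_surjective (g : G) : Function.Surjective (Orb.mk g : X → Orb X g) :=
  Quotient.mk''_surjective

theorem Orb.mk_zpow_smul (g : G) (i : ℤ) (x : X) : Orb.mk g (g ^ i • x) = Orb.mk g x := by
  apply Quotient.sound'
  exact ⟨⟨g ^ i, Subgroup.zpow_mem_zpowers g i⟩, rfl⟩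

theorem Orb.mk_smul (g : G) (x : X) : Orb.mk g (g • x) = Orb.mk g x := by
  simpa using Orb.mk_zpow_smul g 1 x

theorem Orb.mk_inv_smul (g : G) (x : X) : Orb.mk g (g⁻¹ • x) = Orb.mk g x := by
  simpa using Orb.mk_zpow_smul g (-1) x

theorem Orb.mk_pow_inv_smul (g : G) (i : ℕ) (x : X) : Orb.mk g ((g ^ i)⁻¹ • x) = Orb.mk g x := by
  simpa using Orb.mk_zpow_smul g (-(i : ℤ)) x

variable [Fintype X]

instance (g : G) : Fintype (Orb X g) := Fintype.ofFinite _

/-- translation of functions -/
def tr (g : G) : (X → k) →ₗ[k] (X → k) := LinearMap.funLeft k k (fun x => g⁻¹ • x)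

@[simp] theorem tr_apply (g : G) (m : X → k) (x : X) : tr g m x = m (g⁻¹ • x) := rfl

/-- orbit sums -/
def orbSum (g : G) : (X → k) →ₗ[k] (Orb X g → k) where
  toFun m O := ∑ x with Orb.mk g x = O, m x
  map_add' m m' := by
    ext O
    simp [Finset.sum_add_distrib]
  map_smul' c m := by
    ext O
    simp [Finset.mul_sum]

theorem orbSum_apply (g : G) (m : X → k) (O : Orb X g) :
    orbSum g m O = ∑ x with Orb.mk g x = O, m x := rfl

theorem orbSum_single (g : G) (x : X) (c : k) :
    orbSum g (Pi.single x c) = Pi.single (Orb.mk g x) c := by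
  ext O
  rw [orbSum_apply]
  by_cases h : Orb.mk g x = O
  · rw [← h, Pi.single_eq_same, Finset.sum_eq_single x]
    · simp
    · intro y _ hy
      simp [hy]
    · intro hx
      simp at hx
  · rw [Pi.single_eq_of_ne (Ne.symm h)]
    apply Finset.sum_eq_zero
    intro y hy
    have : y ≠ x := by
      rintro rfl
      simp at hy
      exact h hy
    simp [this]

theorem tr_single (g : G) (x : X) (c : k) :
    tr g (Pi.single x c : X → k) = Pi.single (g • x) c := by
  ext z
  simp only [tr_apply, Pi.single_apply]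
  congr 1
  rw [eq_iff_iff, inv_smul_eq_iff]

/-- A function invariant under two generators of a transitive group is constant. -/
theorem const_of_invariant [IsPretransitive G X] {Y : Type*} (S T : G)
    (hgen : Subgroup.closure {S, T} = ⊤)
    (L : X → Y) (hS : ∀ x, L (S • x) = L x) (hT : ∀ x, L (T • x) = L x) (x y : X) :
    L x = L y := by
  let H : Subgroup G :=
    { carrier := {g | ∀ x, L (g • x) = L x}
      one_mem' := fun x => by rw [one_smul]
      mul_mem' := fun {a b} ha hb x => by rw [mul_smul, ha, hb]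
      inv_mem' := fun {a} ha x => by
        have := ha (a⁻¹ • x)
        rw [smul_inv_smul] at this
        exact this.symm }
  have hH : H = ⊤ := by
    rw [eq_top_iff, ← hgen, Subgroup.closure_le]
    rintro g (rfl | rfl)
    · exact hS
    · exact hT
  obtain ⟨g, rfl⟩ := MulAction.exists_smul_eq G x y
  have : g ∈ H := hH ▸ Subgroup.mem_top g
  exact (this x).symm

/-- The main linear map `(a, b) ↦ (Σ_S a, Σ_U b, Σ_T S⁻¹(b - a))`. -/
def Lam (S U T : G) :
    (X → k) × (X → k) →ₗ[k] (Orb X S → k) × (Orb X U → k) × (Orb X T → k) :=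
  LinearMap.prod ((orbSum S).comp (LinearMap.fst k _ _))
    (LinearMap.prod ((orbSum U).comp (LinearMap.snd k _ _))
      (((orbSum T).comp (tr S⁻¹)).comp (LinearMap.snd k _ _ - LinearMap.fst k _ _)))

theorem Lam_apply (S U T : G) (a b : X → k) :
    Lam S U T (a, b) = (orbSum S a, orbSum U b, orbSum T (tr S⁻¹ (b - a))) := rfl

theorem Lam_single_left (S U T : G) (x : X) :
    Lam S U T ((Pi.single x 1 : X → k), 0) =
      ((Pi.single (Orb.mk S x) 1, 0, 0) : (Orb X S → k) × (Orb X U → k) × (Orb X T → k)) -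
        (0, 0, Pi.single (Orb.mk T (S⁻¹ • x)) 1) := by
  rw [Lam_apply, zero_sub, map_neg, map_neg, tr_single, orbSum_single, orbSum_single, map_zero]
  simp

theorem Lam_single_right (S U T : G) (x : X) :
    Lam S U T (0, (Pi.single x 1 : X → k)) =
      ((0, Pi.single (Orb.mk U x) 1, 0) : (Orb X S → k) × (Orb X U → k) × (Orb X T → k)) +
        (0, 0, Pi.single (Orb.mk T (S⁻¹ • x)) 1) := by
  rw [Lam_apply, sub_zero, tr_single, orbSum_single, orbSum_single, map_zero]
  simp

theorem range_Lam_sup_span [IsPretransitive G X] (S U T : G)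
    (hgen : Subgroup.closure {S, T} = ⊤) (x0 : X) :
    LinearMap.range (Lam (X := X) (k := k) S U T) ⊔
      Submodule.span k {((0, 0, Pi.single (Orb.mk T x0) 1) :
        (Orb X S → k) × (Orb X U → k) × (Orb X T → k))} = ⊤ := by
  by_contra hne
  obtain ⟨f, hf0, hf⟩ := Submodule.exists_le_ker_of_lt_top _ (lt_top_iff_ne_top.mpr hne)
  apply hf0
  have hrange : ∀ v, f (Lam S U T v) = 0 := fun v =>
    hf (Submodule.mem_sup_left (LinearMap.mem_range_self _ v))
  have he : f (0, 0, Pi.single (Orb.mk T x0) 1) = 0 :=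
    hf (Submodule.mem_sup_right (Submodule.mem_span_singleton_self _))
  set L₁ : Orb X S → k := fun O => f (Pi.single O 1, 0, 0) with hL₁
  set L₂ : Orb X U → k := fun O => f (0, Pi.single O 1, 0) with hL₂
  set L₃ : Orb X T → k := fun O => f (0, 0, Pi.single O 1) with hL₃
  have h1 : ∀ x, L₁ (Orb.mk S x) = L₃ (Orb.mk T (S⁻¹ • x)) := by
    intro x
    have := hrange ((Pi.single x 1 : X → k), 0)
    rw [Lam_single_left, map_sub, sub_eq_zero] at this
    exact this
  have h2 : ∀ x, L₂ (Orb.mk U x) = - L₃ (Orb.mk T (S⁻¹ • x)) := by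
    intro x
    have := hrange (0, (Pi.single x 1 : X → k))
    rw [Lam_single_right, map_add] at this
    exact eq_neg_of_add_eq_zero_left this
  set L : X → k := fun x => L₃ (Orb.mk T x) with hL
  have hLT : ∀ x, L (T • x) = L x := fun x => by
    simp only [hL, Orb.mk_smul]
  have hLS' : ∀ x, L (S⁻¹ • x) = L x := by
    intro x
    have e1 := h1 x
    have e2 := h1 (S • x)
    rw [Orb.mk_smul, inv_smul_smul] at e2
    simp only [hL]
    rw [← e1, e2]
  have hLS : ∀ x, L (S • x) = L x := by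
    intro x
    have := hLS' (S • x)
    rw [inv_smul_smul] at this
    exact this.symm
  have hL0 : ∀ x, L x = 0 := fun x => by
    rw [const_of_invariant S T hgen L hLS hLT x x0]
    exact he
  have hL₃0 : ∀ O, L₃ O = 0 := by
    intro O
    obtain ⟨x, rfl⟩ := Orb.mk_surjective T O
    exact hL0 x
  have hL₁0 : ∀ O, L₁ O = 0 := by
    intro O
    obtain ⟨x, rfl⟩ := Orb.mk_surjective S O
    rw [h1, hL₃0]
  have hL₂0 : ∀ O, L₂ O = 0 := by
    intro O
    obtain ⟨x, rfl⟩ := Orb.mk_surjective U O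
    rw [h2, hL₃0, neg_zero]
  apply LinearMap.prod_ext
  · apply LinearMap.pi_ext
    intro O c
    have : (Pi.single O c : Orb X S → k) = c • Pi.single O 1 := by
      rw [← Pi.single_smul, smul_eq_mul, mul_one]
    simp only [LinearMap.coe_comp, Function.comp_apply, LinearMap.inl_apply, LinearMap.zero_apply]
    rw [this]
    have e : ((c • (Pi.single O 1 : Orb X S → k)), (0 : (Orb X U → k) × (Orb X T → k))) =
        c • ((Pi.single O 1 : Orb X S → k), ((0 : Orb X U → k), (0 : Orb X T → k))) := by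
      simp only [Prod.smul_mk, smul_zero]
      rfl
    rw [e, map_smul]
    have := hL₁0 O
    simp only [hL₁] at this
    rw [this, smul_zero]
  · apply LinearMap.prod_ext
    · apply LinearMap.pi_ext
      intro O c
      have : (Pi.single O c : Orb X U → k) = c • Pi.single O 1 := by
        rw [← Pi.single_smul, smul_eq_mul, mul_one]
      simp only [LinearMap.coe_comp, Function.comp_apply, LinearMap.inl_apply,
        LinearMap.inr_apply, LinearMap.zero_apply]
      rw [this]
      have e : ((0 : Orb X S → k), (c • (Pi.single O 1 : Orb X U → k), (0 : Orb X T → k))) =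
          c • ((0 : Orb X S → k), ((Pi.single O 1 : Orb X U → k), (0 : Orb X T → k))) := by
        simp
      rw [e, map_smul]
      have := hL₂0 O
      simp only [hL₂] at this
      rw [this, smul_zero]
    · apply LinearMap.pi_ext
      intro O c
      have : (Pi.single O c : Orb X T → k) = c • Pi.single O 1 := by
        rw [← Pi.single_smul, smul_eq_mul, mul_one]
      simp only [LinearMap.coe_comp, Function.comp_apply,
        LinearMap.inr_apply, LinearMap.zero_apply]
      rw [this]
      have e : ((0 : Orb X S → k), ((0 : Orb X U → k), c • (Pi.single O 1 : Orb X T → k))) =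
          c • ((0 : Orb X S → k), ((0 : Orb X U → k), (Pi.single O 1 : Orb X T → k))) := by
        simp
      rw [e, map_smul]
      have := hL₃0 O
      simp only [hL₃] at this
      rw [this, smul_zero]


theorem finrank_ker_Lam_add_le [IsPretransitive G X] (S U T : G)
    (hgen : Subgroup.closure {S, T} = ⊤) (x0 : X) :
    finrank k (LinearMap.ker (Lam (X := X) (k := k) S U T)) +
      (Fintype.card (Orb X S) + Fintype.card (Orb X U) + Fintype.card (Orb X T)) ≤
      2 * Fintype.card X + 1 := by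
  have h1 := range_Lam_sup_span (k := k) S U T hgen x0
  have h2 := Submodule.finrank_add_le_finrank_add_finrank (LinearMap.range (Lam (X := X) (k := k) S U T))
    (Submodule.span k {((0, 0, Pi.single (Orb.mk T x0) 1) :
        (Orb X S → k) × (Orb X U → k) × (Orb X T → k))})
  rw [h1, finrank_top] at h2
  have h3 : finrank k (Submodule.span k {((0, 0, Pi.single (Orb.mk T x0) 1) :
        (Orb X S → k) × (Orb X U → k) × (Orb X T → k))}) ≤ 1 := by
    refine (finrank_span_le_card _).trans ?_
    simp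
  have h4 : finrank k ((Orb X S → k) × (Orb X U → k) × (Orb X T → k)) =
      Fintype.card (Orb X S) + (Fintype.card (Orb X U) + Fintype.card (Orb X T)) := by
    rw [Module.finrank_prod, Module.finrank_prod, Module.finrank_fintype_fun_eq_card,
      Module.finrank_fintype_fun_eq_card, Module.finrank_fintype_fun_eq_card]
  have h5 := LinearMap.finrank_range_add_finrank_ker (Lam (X := X) (k := k) S U T)
  have h6 : finrank k ((X → k) × (X → k)) = 2 * Fintype.card X := by
    rw [Module.finrank_prod, Module.finrank_fintype_fun_eq_card (R := k) (η := X)]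
    ring
  omega


/-! ### The bridge between iterated sums and orbit sums -/

theorem orbSum_eq_zero_of_sum_eq_zero [CharZero k] (g : G) (m' : X → k) (H : ℕ) (hH : 0 < H)
    (h : ∀ x, ∑ i ∈ Finset.range H, m' ((g ^ i)⁻¹ • x) = 0) : orbSum g m' = 0 := by
  ext O
  rw [orbSum_apply, Pi.zero_apply]
  have key : ∀ i : ℕ, ∑ x with Orb.mk g x = O, m' ((g ^ i)⁻¹ • x) =
      ∑ x with Orb.mk g x = O, m' x := by
    intro i
    refine Finset.sum_equiv (MulAction.toPerm ((g ^ i)⁻¹)) ?_ ?_
    · intro x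
      simp only [Finset.mem_filter, Finset.mem_univ, true_and, MulAction.toPerm_apply]
      rw [Orb.mk_pow_inv_smul]
    · intro x _
      rfl
  have h2 : ∑ x with Orb.mk g x = O, ∑ i ∈ Finset.range H, m' ((g ^ i)⁻¹ • x) = 0 :=
    Finset.sum_eq_zero fun x _ => h x
  rw [Finset.sum_comm] at h2
  rw [Finset.sum_congr rfl (fun i _ => key i), Finset.sum_const, Finset.card_range] at h2
  rcases smul_eq_zero.mp h2 with h3 | h3
  · exact absurd h3 hH.ne'
  · exact h3

/-- A common period of `g` on `X`. -/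
theorem exists_common_period (g : G) : ∃ H : ℕ, 0 < H ∧ ∀ x : X, g ^ H • x = x := by
  refine ⟨Fintype.card (Equiv.Perm X), Fintype.card_pos, fun x => ?_⟩
  have h1 : (MulAction.toPermHom G X g) ^ Fintype.card (Equiv.Perm X) = 1 := pow_card_eq_one
  rw [← map_pow] at h1
  have := congrArg (fun σ : Equiv.Perm X => σ x) h1
  simpa using this

/-! ### The induced cocycle -/

section Cocycle

variable (x0 : X)

/-- extension by zero of an additive character of the stabilizer -/
def ext0 (φ : Additive (stabilizer G x0) →+ k) (g : G) : k :=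
  if h : g ∈ stabilizer G x0 then φ (Additive.ofMul ⟨g, h⟩) else 0

theorem ext0_of_mem (φ : Additive (stabilizer G x0) →+ k) {g : G} (h : g ∈ stabilizer G x0) :
    ext0 x0 φ g = φ (Additive.ofMul ⟨g, h⟩) := dif_pos h

theorem ext0_mul (φ : Additive (stabilizer G x0) →+ k) {g g' : G} (h : g ∈ stabilizer G x0)
    (h' : g' ∈ stabilizer G x0) : ext0 x0 φ (g * g') = ext0 x0 φ g + ext0 x0 φ g' := by
  rw [ext0_of_mem x0 φ h, ext0_of_mem x0 φ h', ext0_of_mem x0 φ (mul_mem h h'), ← map_add]
  rfl

theorem ext0_one (φ : Additive (stabilizer G x0) →+ k) : ext0 x0 φ 1 = 0 := by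
  rw [ext0_of_mem x0 φ (one_mem _)]
  exact map_zero φ

theorem ext0_add (φ ψ : Additive (stabilizer G x0) →+ k) (g : G) :
    ext0 x0 (φ + ψ) g = ext0 x0 φ g + ext0 x0 ψ g := by
  unfold ext0
  split_ifs <;> simp

theorem ext0_smul (c : k) (φ : Additive (stabilizer G x0) →+ k) (g : G) :
    ext0 x0 (c • φ) g = c * ext0 x0 φ g := by
  unfold ext0
  split_ifs <;> simp

theorem ext0_eq_zero_of_pow_eq_one [CharZero k] (φ : Additive (stabilizer G x0) →+ k) {g : G}
    {n : ℕ} (hn : 0 < n) (hg : g ^ n = 1) : ext0 x0 φ g = 0 := by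
  unfold ext0
  split_ifs with h
  · have h1 : n • φ (Additive.ofMul ⟨g, h⟩) = 0 := by
      rw [← map_nsmul, ← ofMul_pow]
      have : (⟨g, h⟩ : stabilizer G x0) ^ n = 1 := Subtype.ext (by simpa using hg)
      rw [this]
      exact map_zero φ
    rcases smul_eq_zero.mp h1 with h2 | h2
    · exact absurd h2 hn.ne'
    · exact h2
  · rfl

variable (s : X → G)

/-- The cocycle attached to `φ` and `m` through the section `s`. -/
def coc (φ : Additive (stabilizer G x0) →+ k) (m : X → k) (g : G) : X → k := fun x =>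
  ext0 x0 φ ((s x)⁻¹ * g * s (g⁻¹ • x)) + m (g⁻¹ • x) - m x

variable {x0 s}

theorem mem_stab (hs : ∀ x, s x • x0 = x) (g : G) (x : X) :
    (s x)⁻¹ * g * s (g⁻¹ • x) ∈ stabilizer G x0 := by
  rw [mem_stabilizer_iff, mul_smul, mul_smul, hs, smul_inv_smul, inv_smul_eq_iff, hs]

theorem coc_mul (hs : ∀ x, s x • x0 = x) (φ : Additive (stabilizer G x0) →+ k) (m : X → k)
    (g h : G) (x : X) :
    coc x0 s φ m (g * h) x = coc x0 s φ m g x + coc x0 s φ m h (g⁻¹ • x) := by
  unfold coc
  have e1 : (g * h)⁻¹ • x = h⁻¹ • g⁻¹ • x := by rw [mul_inv_rev, mul_smul]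
  have e2 : (s x)⁻¹ * (g * h) * s (h⁻¹ • g⁻¹ • x) =
      ((s x)⁻¹ * g * s (g⁻¹ • x)) * ((s (g⁻¹ • x))⁻¹ * h * s (h⁻¹ • g⁻¹ • x)) := by group
  rw [e1, e2, ext0_mul x0 φ (mem_stab hs g x) (mem_stab hs h (g⁻¹ • x))]
  ring

theorem coc_one (φ : Additive (stabilizer G x0) →+ k) (m : X → k) (x : X) :
    coc x0 s φ m 1 x = 0 := by
  unfold coc
  rw [inv_one, one_smul, mul_one, inv_mul_cancel, ext0_one]
  ring

theorem coc_inv (hs : ∀ x, s x • x0 = x) (φ : Additive (stabilizer G x0) →+ k) (m : X → k)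
    (g : G) (x : X) : coc x0 s φ m g⁻¹ x = - coc x0 s φ m g (g • x) := by
  have := coc_mul hs φ m g⁻¹ g x
  rw [inv_mul_cancel, coc_one, inv_inv] at this
  exact eq_neg_of_add_eq_zero_left this.symm

theorem coc_pow (hs : ∀ x, s x • x0 = x) (φ : Additive (stabilizer G x0) →+ k) (m : X → k)
    (g : G) (j : ℕ) (x : X) :
    coc x0 s φ m (g ^ j) x = ∑ i ∈ Finset.range j, coc x0 s φ m g ((g ^ i)⁻¹ • x) := by
  induction j with
  | zero => rw [pow_zero, coc_one, Finset.sum_range_zero]
  | succ j ih => rw [pow_succ, coc_mul hs, ih, Finset.sum_range_succ]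

theorem sum_coc_eq (hs : ∀ x, s x • x0 = x) (φ : Additive (stabilizer G x0) →+ k) (m : X → k)
    (g : G) (H : ℕ) (hH : ∀ x : X, g ^ H • x = x) (x : X) :
    ∑ i ∈ Finset.range H, coc x0 s φ m g ((g ^ i)⁻¹ • x) =
      ext0 x0 φ ((s x)⁻¹ * g ^ H * s x) := by
  rw [← coc_pow hs]
  unfold coc
  have : (g ^ H)⁻¹ • x = x := by rw [inv_smul_eq_iff, hH]
  rw [this]
  ring

/-- If `φ` kills the conjugates of powers of `g`, then the orbit sums of `c(g)` vanish. -/
theorem orbSum_coc_eq_zero [CharZero k] (hs : ∀ x, s x • x0 = x)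
    (φ : Additive (stabilizer G x0) →+ k) (m : X → k) (g : G)
    (hφ : ∀ (j : ℕ) (σ : G), ext0 x0 φ (σ⁻¹ * g ^ j * σ) = 0) :
    orbSum g (coc x0 s φ m g) = 0 := by
  obtain ⟨H, hH0, hH⟩ := exists_common_period (X := X) g
  refine orbSum_eq_zero_of_sum_eq_zero g _ H hH0 fun x => ?_
  rw [sum_coc_eq hs φ m g H hH x]
  exact hφ H (s x)

theorem ext0_conj_pow_eq_zero_of_pow_eq_one [CharZero k] (φ : Additive (stabilizer G x0) →+ k)
    {g : G} {n : ℕ} (hn : 0 < n) (hg : g ^ n = 1) (j : ℕ) (σ : G) :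
    ext0 x0 φ (σ⁻¹ * g ^ j * σ) = 0 := by
  apply ext0_eq_zero_of_pow_eq_one x0 φ hn
  have : (σ⁻¹ * g ^ j * σ) ^ n = σ⁻¹ * (g ^ j) ^ n * σ := by
    have := conj_pow (a := σ⁻¹) (b := g ^ j) (i := n)
    rwa [inv_inv] at this
  rw [this, ← pow_mul, mul_comm, pow_mul, hg, one_pow, mul_one, inv_mul_cancel]

theorem coc_T_eq (hs : ∀ x, s x • x0 = x) (φ : Additive (stabilizer G x0) →+ k) (m : X → k)
    (S U : G) :
    coc x0 s φ m (S⁻¹ * U) = tr S⁻¹ (coc x0 s φ m U - coc x0 s φ m S) := by
  ext x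
  rw [coc_mul hs, coc_inv hs, inv_inv, tr_apply, inv_inv, Pi.sub_apply]
  ring

end Cocycle


/-! ### The comparison map and the dimension bound -/

/-- The linear map `(φ, m) ↦ (c(S), c(U))`. -/
def Psi (x0 : X) (s : X → G) (S U : G) :
    (Additive (stabilizer G x0) →+ k) × (X → k) →ₗ[k] (X → k) × (X → k) where
  toFun p := (coc x0 s p.1 p.2 S, coc x0 s p.1 p.2 U)
  map_add' p q := by
    ext x
    · simp only [coc, Prod.fst_add, Prod.snd_add, ext0_add, Pi.add_apply, Prod.mk_add_mk]
      ring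
    · simp only [coc, Prod.fst_add, Prod.snd_add, ext0_add, Pi.add_apply, Prod.mk_add_mk]
      ring
  map_smul' c p := by
    ext x
    · simp only [coc, Prod.smul_fst, Prod.smul_snd, ext0_smul, Pi.smul_apply, smul_eq_mul,
        RingHom.id_apply, Prod.smul_mk]
      ring
    · simp only [coc, Prod.smul_fst, Prod.smul_snd, ext0_smul, Pi.smul_apply, smul_eq_mul,
        RingHom.id_apply, Prod.smul_mk]
      ring

theorem Psi_apply (x0 : X) (s : X → G) (S U : G) (φ : Additive (stabilizer G x0) →+ k)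
    (m : X → k) : Psi x0 s S U (φ, m) = (coc x0 s φ m S, coc x0 s φ m U) := rfl

theorem Psi_eq_zero [IsPretransitive G X] {x0 : X} {s : X → G} (hs : ∀ x, s x • x0 = x)
    {S U : G} (hgen : Subgroup.closure {S, U} = ⊤)
    {φ : Additive (stabilizer G x0) →+ k} {m : X → k} (h : Psi x0 s S U (φ, m) = 0) :
    φ = 0 ∧ ∀ x, m x = m x0 := by
  rw [Psi_apply, Prod.mk_eq_zero] at h
  -- the cocycle vanishes identically
  let K : Subgroup G :=
    { carrier := {g | ∀ x, coc x0 s φ m g x = 0}
      one_mem' := fun x => coc_one φ m x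
      mul_mem' := fun {a b} ha hb x => by rw [coc_mul hs, ha, hb, add_zero]
      inv_mem' := fun {a} ha x => by rw [coc_inv hs, ha, neg_zero] }
  have hK : K = ⊤ := by
    rw [eq_top_iff, ← hgen, Subgroup.closure_le]
    rintro g (rfl | rfl)
    · exact fun x => congrFun h.1 x
    · exact fun x => congrFun h.2 x
  have hall : ∀ g x, coc x0 s φ m g x = 0 := fun g => by
    have : g ∈ K := hK ▸ Subgroup.mem_top g
    exact this
  have hφ : φ = 0 := by
    refine AddMonoidHom.ext fun γ => ?_
    have hγ : (γ.toMul : G) ∈ stabilizer G x0 := γ.toMul.2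
    have h1 := hall (γ.toMul : G) x0
    unfold coc at h1
    have hfix : ((γ.toMul : G))⁻¹ • x0 = x0 := by
      rw [inv_smul_eq_iff]
      exact (mem_stabilizer_iff.mp hγ).symm
    rw [hfix] at h1
    have hσ : s x0 ∈ stabilizer G x0 := mem_stabilizer_iff.mpr (hs x0)
    rw [ext0_mul x0 φ (mul_mem (inv_mem hσ) hγ) hσ, ext0_mul x0 φ (inv_mem hσ) hγ] at h1
    have h2 : ext0 x0 φ (s x0)⁻¹ + ext0 x0 φ (s x0) = 0 := by
      rw [← ext0_mul x0 φ (inv_mem hσ) hσ, inv_mul_cancel, ext0_one]
    have h3 : ext0 x0 φ (γ.toMul : G) = 0 := by linear_combination h1 - h2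
    rw [ext0_of_mem x0 φ hγ] at h3
    exact h3
  refine ⟨hφ, fun x => ?_⟩
  obtain ⟨g, hg⟩ := MulAction.exists_smul_eq G x x0
  have h1 := hall g⁻¹ x
  unfold coc at h1
  rw [hφ, inv_inv, hg] at h1
  have : ext0 x0 (0 : Additive (stabilizer G x0) →+ k) ((s x)⁻¹ * g⁻¹ * s x0) = 0 := by
    unfold ext0
    split_ifs <;> rfl
  rw [this] at h1
  linear_combination -h1

/-- **The abstract dimension bound.** -/
theorem finrank_add_le [CharZero k] [IsPretransitive G X] (S U T : G) (hT : T = S⁻¹ * U)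
    (hgen : Subgroup.closure {S, T} = ⊤) {nS nU : ℕ} (hnS : 0 < nS) (hS : S ^ nS = 1)
    (hnU : 0 < nU) (hU : U ^ nU = 1) (x0 : X)
    (P : Submodule k (Additive (stabilizer G x0) →+ k))
    (hP : ∀ φ ∈ P, ∀ (j : ℕ) (σ : G), ext0 x0 φ (σ⁻¹ * T ^ j * σ) = 0) :
    Module.Finite k P ∧
      finrank k P + (Fintype.card (Orb X S) + Fintype.card (Orb X U) + Fintype.card (Orb X T)) ≤
        Fintype.card X + 2 := by
  choose s hs using fun x => MulAction.exists_smul_eq G x0 x
  have hgen' : Subgroup.closure {S, U} = ⊤ := by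
    rw [eq_top_iff, ← hgen, Subgroup.closure_le]
    rintro g (rfl | rfl)
    · exact Subgroup.subset_closure (by simp)
    · rw [hT]
      exact mul_mem (inv_mem (Subgroup.subset_closure (by simp)))
        (Subgroup.subset_closure (by simp))
  -- finiteness
  have hfin : Module.Finite k P := by
    let ι : P →ₗ[k] (X → k) × (X → k) :=
      (Psi x0 s S U).comp ((LinearMap.inl k _ (X → k)).comp P.subtype)
    have hι : Function.Injective ι := by
      rw [injective_iff_map_eq_zero]
      intro φ hφ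
      have := (Psi_eq_zero hs hgen' (φ := (φ : Additive (stabilizer G x0) →+ k)) (m := 0)
        hφ).1
      exact Subtype.ext this
    exact Module.Finite.of_injective ι hι
  refine ⟨hfin, ?_⟩
  haveI : Module.Finite k P := hfin
  haveI : Module.Free k P := Module.Free.of_divisionRing k P
  let Ψ : P × (X → k) →ₗ[k] (X → k) × (X → k) :=
    (Psi x0 s S U).comp (LinearMap.prodMap P.subtype LinearMap.id)
  have hΨ : ∀ (φ : P) (m : X → k), Ψ (φ, m) =
      (coc x0 s (φ : Additive (stabilizer G x0) →+ k) m S,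
        coc x0 s (φ : Additive (stabilizer G x0) →+ k) m U) := fun φ m => rfl
  -- the range lies in the kernel of `Lam`
  have hrange : LinearMap.range Ψ ≤ LinearMap.ker (Lam (X := X) (k := k) S U T) := by
    rintro _ ⟨⟨φ, m⟩, rfl⟩
    rw [LinearMap.mem_ker, hΨ, Lam_apply, ← coc_T_eq hs, ← hT,
      orbSum_coc_eq_zero hs _ m S (ext0_conj_pow_eq_zero_of_pow_eq_one _ hnS hS),
      orbSum_coc_eq_zero hs _ m U (ext0_conj_pow_eq_zero_of_pow_eq_one _ hnU hU),
      orbSum_coc_eq_zero hs _ m T (hP φ φ.2)]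
    rfl
  -- the kernel is at most one-dimensional
  have hker : LinearMap.ker Ψ ≤ Submodule.span k {((0 : P), (fun _ => (1 : k) : X → k))} := by
    rintro ⟨φ, m⟩ hp
    rw [LinearMap.mem_ker, hΨ] at hp
    obtain ⟨h1, h2⟩ := Psi_eq_zero hs hgen' (φ := (φ : Additive (stabilizer G x0) →+ k))
      (m := m) hp
    rw [Submodule.mem_span_singleton]
    refine ⟨m x0, ?_⟩
    ext : 1
    · simp only [Prod.smul_mk, smul_zero]
      exact (Subtype.ext h1).symm
    · ext x
      simp [h2 x]
  have h1 : finrank k (LinearMap.ker Ψ) ≤ 1 := by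
    refine (Submodule.finrank_mono hker).trans ?_
    refine (finrank_span_le_card _).trans ?_
    simp
  have h2 : finrank k (LinearMap.range Ψ) ≤ finrank k (LinearMap.ker (Lam (X := X) (k := k) S U T)) :=
    Submodule.finrank_mono hrange
  have h3 := LinearMap.finrank_range_add_finrank_ker (K := k) (V := ↥P × (X → k))
    (V₂ := (X → k) × (X → k)) Ψ
  have h4 : finrank k (P × (X → k)) = finrank k P + Fintype.card X := by
    rw [Module.finrank_prod, Module.finrank_fintype_fun_eq_card]
  have h5 := finrank_ker_Lam_add_le (k := k) S U T hgen x0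
  omega


/-! ### Specialisation to `SL(2, ℤ)` -/

section SL2Z

open scoped MatrixGroups
open ModularGroup ModularCurve.Period

theorem trace_conj_T_pow (j : ℕ) (σ : SL(2, ℤ)) :
    ((σ⁻¹ * T ^ j * σ : SL(2, ℤ)) : Matrix (Fin 2) (Fin 2) ℤ).trace = 2 := by
  rw [Matrix.SpecialLinearGroup.coe_mul, Matrix.trace_mul_comm,
    ← Matrix.SpecialLinearGroup.coe_mul, mul_inv_cancel_left]
  have := coe_T_zpow (j : ℤ)
  rw [zpow_natCast] at this
  rw [this, Matrix.trace_fin_two_of]
  norm_num

/-- **Upper bound for the dimension of the space of parabolic homomorphisms** of a finite index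
subgroup `Γ` of `SL(2, ℤ)`, realised as the stabiliser of a point of a finite transitive
`SL(2, ℤ)`-set `X`: `dim + c(S) + c(ST) + c(T) ≤ |X| + 2`, where `c(g)` is the number of cycles
of `g` on `X` (Riemann–Hurwitz). -/
theorem finrank_parabolicHoms_add_le {Y : Type*} [Fintype Y] [MulAction SL(2, ℤ) Y]
    [IsPretransitive SL(2, ℤ) Y] (y0 : Y) (Γ : Subgroup SL(2, ℤ))
    (hΓ : stabilizer SL(2, ℤ) y0 = Γ) (K : Type*) [Field K] [CharZero K] :
    Module.Finite K (parabolicHoms K Γ K) ∧
      finrank K (parabolicHoms K Γ K) +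
        (Fintype.card (Orb Y (S : SL(2, ℤ))) + Fintype.card (Orb Y (S * T : SL(2, ℤ))) +
          Fintype.card (Orb Y (T : SL(2, ℤ)))) ≤ Fintype.card Y + 2 := by
  subst hΓ
  refine finrank_add_le (k := K) (S : SL(2, ℤ)) (S * T) T (by group)
    _root_.SpecialLinearGroup.SL2Z_generators (nS := 4) (nU := 6) (by norm_num) (by decide)
    (by norm_num) (by decide) y0 (parabolicHoms K (stabilizer SL(2, ℤ) y0) K) ?_
  intro φ hφ j σ
  unfold ext0
  split_ifs with h
  · refine hφ ⟨_, h⟩ ?_
    show ((σ⁻¹ * T ^ j * σ : SL(2, ℤ)) : Matrix (Fin 2) (Fin 2) ℤ).trace ^ 2 = 4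
    rw [trace_conj_T_pow]
    norm_num
  · rfl

end SL2Z


/-! ### `Γ₀(N)` -/

section Gamma0

open scoped MatrixGroups
open ModularGroup ModularCurve.Period CongruenceSubgroup

/-- **The space of parabolic homomorphisms `Γ₀(N) → K` is finite dimensional of dimension at most
`2 g`**, `g = genusFormula N`. -/
theorem finrank_parabolicHoms_Gamma0_le (N : ℕ) [NeZero N] (K : Type*) [Field K] [CharZero K] :
    Module.Finite K (parabolicHoms K (Gamma0 N) K) ∧
      (finrank K (parabolicHoms K (Gamma0 N) K) : ℚ) ≤ 2 * ModularCurve.genusFormula N := by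
  haveI : Fintype (SL(2, ℤ) ⧸ Gamma0 N) := Fintype.ofFinite _
  obtain ⟨hfin, hle⟩ := finrank_parabolicHoms_add_le
    (Y := SL(2, ℤ) ⧸ Gamma0 N) ((1 : SL(2, ℤ)) : SL(2, ℤ) ⧸ Gamma0 N) (Gamma0 N)
    (MulAction.stabilizer_quotient (Gamma0 N)) K
  refine ⟨hfin, ?_⟩
  have hS := two_mul_cyc_S_quotient_Gamma0 N
  have hU := three_mul_cyc_ST_quotient_Gamma0 N
  have hT := cyc_T_quotient_Gamma0 N
  have hX := natCard_quotient_Gamma0 N
  unfold Ree.cyc at hS hU hT
  rw [Nat.card_eq_fintype_card] at hS hU hT hX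
  unfold ModularCurve.genusFormula
  set d := finrank K (parabolicHoms K (Gamma0 N) K) with hd
  set cS := Fintype.card (Orb (SL(2, ℤ) ⧸ Gamma0 N) (S : SL(2, ℤ))) with hcS
  set cU := Fintype.card (Orb (SL(2, ℤ) ⧸ Gamma0 N) (S * T : SL(2, ℤ))) with hcU
  set cT := Fintype.card (Orb (SL(2, ℤ) ⧸ Gamma0 N) (T : SL(2, ℤ))) with hcT
  have h1 : (d : ℚ) + (cS + cU + cT) ≤ (ModularCurve.dedekindPsi N : ℚ) + 2 := by
    rw [← hX]
    exact_mod_cast hle
  have h2 : (2 : ℚ) * cS = ModularCurve.dedekindPsi N + ModularCurve.nuTwo N := by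
    exact_mod_cast hS
  have h3 : (3 : ℚ) * cU = ModularCurve.dedekindPsi N + 2 * ModularCurve.nuThree N := by
    exact_mod_cast hU
  have h4 : (cT : ℚ) = ModularCurve.cuspCount N := by exact_mod_cast hT
  linarith

end Gamma0


end

end Fermat.Agent.X0.PD
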