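import Fermat.Agent.X0.ES.InjectiveMain
import Fermat.Agent.X0.ES.ParabolicDim

/-!
# X0 / ES: Eichler–Shimura, assembly

* `finite_cuspForm_Gamma0_two`, `finrank_cuspForm_Gamma0_two_le` : `S₂(Γ₀(N))` is finite
  dimensional of dimension `≤ genusFormula N` (from the injectivity of the period pairing into the
  space of parabolic homomorphisms, of dimension `≤ 2 g`);
* `range_periodHomPair_eq_of_le` : if moreover `genusFormula N ≤ dim S₂(Γ₀(N))` (this is the half
  of `S20` coming from Riemann–Roch) then the range of the period pairing is the full space of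
  parabolic homomorphisms;
* `eichlerShimura_of_le` : the statement of `S21` under that hypothesis.
-/

set_option autoImplicit false

open CongruenceSubgroup ModularCurve ModularCurve.Period Module

namespace Fermat.Agent.X0

theorem finite_parabolicHoms_Gamma0 (N : ℕ) [NeZero N] :
    Module.Finite ℂ (parabolicHoms ℂ (Gamma0 N) ℂ) :=
  (PD.finrank_parabolicHoms_Gamma0_le N ℂ).1

/-- The period pairing, with values in the space of parabolic homomorphisms. -/
noncomputable def periodHomPairPar (N : ℕ) [NeZero N] :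
    (CuspForm (Gamma0 N) 2 × CuspForm (Gamma0 N) 2) →ₗ[ℂ] parabolicHoms ℂ (Gamma0 N) ℂ :=
  LinearMap.codRestrict _ (periodHomPair N)
    fun p => range_periodHomPair_le N (LinearMap.mem_range_self _ p)

theorem periodHomPairPar_injective (N : ℕ) [NeZero N] :
    Function.Injective (periodHomPairPar N) := fun _ _ h =>
  periodHomPair_injective N (congrArg Subtype.val h)

theorem finite_cuspForm_Gamma0_two_sq (N : ℕ) [NeZero N] :
    Module.Finite ℂ (CuspForm (Gamma0 N) 2 × CuspForm (Gamma0 N) 2) := by
  haveI := finite_parabolicHoms_Gamma0 N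
  exact Module.Finite.of_injective (periodHomPairPar N) (periodHomPairPar_injective N)

/-- `S₂(Γ₀(N))` is finite dimensional. -/
theorem finite_cuspForm_Gamma0_two (N : ℕ) [NeZero N] :
    Module.Finite ℂ (CuspForm (Gamma0 N) 2) := by
  haveI := finite_cuspForm_Gamma0_two_sq N
  exact Module.Finite.of_injective (LinearMap.inl ℂ (CuspForm (Gamma0 N) 2) (CuspForm (Gamma0 N) 2))
    LinearMap.inl_injective

theorem two_mul_finrank_cuspForm_le (N : ℕ) [NeZero N] :
    2 * finrank ℂ (CuspForm (Gamma0 N) 2) ≤ finrank ℂ (parabolicHoms ℂ (Gamma0 N) ℂ) := by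
  haveI := finite_parabolicHoms_Gamma0 N
  haveI := finite_cuspForm_Gamma0_two N
  have h := LinearMap.finrank_le_finrank_of_injective (periodHomPairPar_injective N)
  rw [Module.finrank_prod] at h
  omega

/-- **`dim S₂(Γ₀(N)) ≤ g`.** -/
theorem finrank_cuspForm_Gamma0_two_le (N : ℕ) [NeZero N] :
    (finrank ℂ (CuspForm (Gamma0 N) 2) : ℚ) ≤ genusFormula N := by
  have h1 := two_mul_finrank_cuspForm_le N
  have h2 := (PD.finrank_parabolicHoms_Gamma0_le N ℂ).2
  have h3 : (2 : ℚ) * (finrank ℂ (CuspForm (Gamma0 N) 2) : ℚ) ≤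
      (finrank ℂ (parabolicHoms ℂ (Gamma0 N) ℂ) : ℚ) := by exact_mod_cast h1
  linarith

/-- If `g ≤ dim S₂(Γ₀(N))`, the period pairing is onto the parabolic homomorphisms. -/
theorem range_periodHomPair_eq_of_le (N : ℕ) [NeZero N]
    (h : genusFormula N ≤ (finrank ℂ (CuspForm (Gamma0 N) 2) : ℚ)) :
    LinearMap.range (periodHomPair N) = parabolicHoms ℂ (Gamma0 N) ℂ := by
  haveI := finite_parabolicHoms_Gamma0 N
  haveI := finite_cuspForm_Gamma0_two N
  refine Submodule.eq_of_le_of_finrank_le (range_periodHomPair_le N) ?_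
  rw [LinearMap.finrank_range_of_inj (periodHomPair_injective N), Module.finrank_prod]
  have h2 := (PD.finrank_parabolicHoms_Gamma0_le N ℂ).2
  have h3 : (finrank ℂ (parabolicHoms ℂ (Gamma0 N) ℂ) : ℚ) ≤
      ((finrank ℂ (CuspForm (Gamma0 N) 2) + finrank ℂ (CuspForm (Gamma0 N) 2) : ℕ) : ℚ) := by
    push_cast
    linarith
  exact_mod_cast h3

/-- **Eichler–Shimura (S21)**, assuming the lower bound `g ≤ dim S₂(Γ₀(N))` of `S20`. -/
theorem eichlerShimura_of_le (N : ℕ) [NeZero N]
    (h : genusFormula N ≤ (finrank ℂ (CuspForm (Gamma0 N) 2) : ℚ)) :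
    Function.Injective (periodHomPair N) ∧
      LinearMap.range (periodHomPair N) = parabolicHoms ℂ (Gamma0 N) ℂ :=
  ⟨periodHomPair_injective N, range_periodHomPair_eq_of_le N h⟩

end Fermat.Agent.X0
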