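import Mathlib

/-!
# The presentation `SL(2, ℤ) = ⟨S, U | S⁴ = 1, U³ = S²⟩` (`U = S * T`)

Main result `SL2Pres.exists_hom`: for every group `Q` with elements `s, u` such that `s ^ 4 = 1` and
`u ^ 3 = s ^ 2` there is a homomorphism `SL(2, ℤ) →* Q` with `S ↦ s`, `U ↦ u`.

The proof: ping-pong for `C₂ * C₃` acting on the upper half plane (right and left half), then the
central extension by `±1` is handled by hand.
-/

set_option autoImplicit false

namespace Fermat.Agent.X0
namespace SL2Pres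

open Matrix Matrix.SpecialLinearGroup ModularGroup UpperHalfPlane
open scoped MatrixGroups Pointwise

/-- `U = S * T`, of order 6 with `U ^ 3 = S ^ 2 = -1`. -/
def U : SL(2, ℤ) := S * T

lemma coe_U : (U : Matrix (Fin 2) (Fin 2) ℤ) = !![0, -1; 1, 1] := by
  rw [U, coe_mul, coe_S, coe_T]
  simp

lemma S_sq : S ^ 2 = -1 := by
  apply Matrix.SpecialLinearGroup.ext
  intro i j
  rw [coe_pow, coe_S, coe_neg, Matrix.SpecialLinearGroup.coe_one, pow_two]
  fin_cases i <;> fin_cases j <;> simp [Matrix.one_fin_two]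

lemma S_pow_four : S ^ 4 = 1 := by
  have : S ^ 4 = (S ^ 2) ^ 2 := by rw [← pow_mul]
  rw [this, S_sq]; simp

lemma U_sq : U ^ 2 = T⁻¹ * S := by
  apply Matrix.SpecialLinearGroup.ext
  intro i j
  rw [coe_pow, coe_U, coe_mul, coe_S, coe_T_inv, pow_two]
  fin_cases i <;> fin_cases j <;> simp

lemma U_pow_three : U ^ 3 = S ^ 2 := by
  rw [S_sq]
  apply Matrix.SpecialLinearGroup.ext
  intro i j
  rw [coe_pow, coe_U, coe_neg, Matrix.SpecialLinearGroup.coe_one, pow_succ, pow_two]
  fin_cases i <;> fin_cases j <;> simp [Matrix.one_fin_two]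

lemma T_eq : T = S⁻¹ * U := by
  rw [U, inv_mul_cancel_left]

lemma re_S_smul (z : ℍ) : (S • z).re = - z.re / Complex.normSq z := by
  rw [modular_S_smul]
  show ((-(z : ℂ))⁻¹).re = _
  rw [Complex.inv_re, Complex.normSq_neg, Complex.neg_re]
  rfl

lemma re_T_smul (z : ℍ) : (T • z).re = z.re + 1 := by
  rw [modular_T_smul]
  simp [add_comm]

lemma re_T_inv_smul (z : ℍ) : (T⁻¹ • z).re = z.re - 1 := by
  have := modular_T_zpow_smul z (-1)
  rw [_root_.zpow_neg_one] at this
  rw [this]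
  simp [sub_eq_add_neg, add_comm]

lemma re_S_smul_pos {z : ℍ} (hz : z.re < 0) : 0 < (S • z).re := by
  rw [re_S_smul]
  have : 0 < Complex.normSq z := Complex.normSq_pos.mpr z.ne_zero
  apply div_pos _ this
  linarith

lemma re_S_smul_neg {z : ℍ} (hz : 0 < z.re) : (S • z).re < 0 := by
  rw [re_S_smul]
  have : 0 < Complex.normSq z := Complex.normSq_pos.mpr z.ne_zero
  apply div_neg_of_neg_of_pos _ this
  linarith

lemma re_U_smul_neg {z : ℍ} (hz : 0 < z.re) : (U • z).re < 0 := by
  rw [U, mul_smul]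
  apply re_S_smul_neg
  rw [re_T_smul]; linarith

lemma re_U_sq_smul_neg {z : ℍ} (hz : 0 < z.re) : ((U ^ 2) • z).re < 0 := by
  rw [U_sq, mul_smul, re_T_inv_smul]
  have := re_S_smul_neg hz
  linarith

section cyc

variable {G : Type*} [Group G]

/-- the homomorphism from the cyclic group of order `n` defined by an element of order
dividing `n`. -/
def cycHom (n : ℕ) [NeZero n] (g : G) (hg : g ^ n = 1) : Multiplicative (ZMod n) →* G :=
  MonoidHom.mk' (fun h => g ^ (ZMod.val (Multiplicative.toAdd h))) (by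
    intro a b
    rw [toAdd_mul, ZMod.val_add, ← pow_add, ← pow_eq_pow_mod _ hg])

lemma cycHom_apply (n : ℕ) [NeZero n] (g : G) (hg : g ^ n = 1) (h : Multiplicative (ZMod n)) :
    cycHom n g hg h = g ^ (ZMod.val (Multiplicative.toAdd h)) := rfl

/-- the family of cyclic groups `C₂, C₃`. -/
abbrev CFam (i : Fin 2) : Type := Multiplicative (ZMod (i.val + 2))

/-- the family of homs `C₂ → G, C₃ → G` defined by a pair of elements. -/
def famHom (g : Fin 2 → G) (hg : ∀ i, g i ^ (i.val + 2) = 1) (i : Fin 2) : CFam i →* G :=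
  cycHom (i.val + 2) (g i) (hg i)

lemma famHom_apply (g : Fin 2 → G) (hg : ∀ i, g i ^ (i.val + 2) = 1) (i : Fin 2) (h : CFam i) :
    famHom g hg i h = g i ^ (ZMod.val (Multiplicative.toAdd h)) := rfl

/-- the hom `C₂ * C₃ → G` defined by a pair of elements. -/
def coprodHom (g : Fin 2 → G) (hg : ∀ i, g i ^ (i.val + 2) = 1) : Monoid.CoprodI CFam →* G :=
  Monoid.CoprodI.lift (famHom g hg)

lemma coprodHom_of (g : Fin 2 → G) (hg : ∀ i, g i ^ (i.val + 2) = 1) (i : Fin 2) (h : CFam i) :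
    coprodHom g hg (Monoid.CoprodI.of h) = g i ^ (ZMod.val (Multiplicative.toAdd h)) := by
  rw [coprodHom, Monoid.CoprodI.lift_of, famHom_apply]

lemma coprodHom_of_one (g : Fin 2 → G) (hg : ∀ i, g i ^ (i.val + 2) = 1) (i : Fin 2) :
    coprodHom g hg (Monoid.CoprodI.of (Multiplicative.ofAdd (1 : ZMod (i.val + 2)) : CFam i)) = g i := by
  rw [coprodHom_of, toAdd_ofAdd, ZMod.val_one'' (by omega), pow_one]

/-- naturality -/
lemma comp_coprodHom {G' : Type*} [Group G'] (ψ : G →* G') (g : Fin 2 → G)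
    (hg : ∀ i, g i ^ (i.val + 2) = 1) :
    ψ.comp (coprodHom g hg) = coprodHom (fun i => ψ (g i))
      (fun i => by rw [← map_pow, hg, map_one]) := by
  apply Monoid.CoprodI.ext_hom
  intro i
  refine MonoidHom.ext fun h => ?_
  simp only [MonoidHom.comp_apply, coprodHom_of, map_pow]

lemma coprodHom_congr {g g' : Fin 2 → G} (h : g = g') (hg : ∀ i, g i ^ (i.val + 2) = 1)
    (hg' : ∀ i, g' i ^ (i.val + 2) = 1) : coprodHom g hg = coprodHom g' hg' := by
  subst h; rfl

lemma val_toAdd_ne_zero {i : Fin 2} {h : CFam i} (hh : h ≠ 1) :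
    ZMod.val (Multiplicative.toAdd h) ≠ 0 := by
  intro h0
  apply hh
  rw [ZMod.val_eq_zero] at h0
  exact Multiplicative.toAdd.injective (by rw [h0]; rfl)

lemma val_toAdd_lt {i : Fin 2} (h : CFam i) :
    ZMod.val (Multiplicative.toAdd h) < i.val + 2 := ZMod.val_lt _

end cyc

section abstract

variable {R : Type*} [Group R] {G' : Type*} [Group G']

theorem eq_one_or_eq_of_coprodHom_injective (σ υ : R)
    (hgen : Subgroup.closure ({σ, υ} : Set R) = ⊤)
    (hυ : υ ^ 3 = σ ^ 2) (q : R →* G') (hq : q (σ ^ 2) = 1)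
    (hpow : ∀ i : Fin 2, (if i = 0 then q σ else q υ) ^ (i.val + 2) = 1)
    (hinj : Function.Injective (coprodHom (fun i : Fin 2 => if i = 0 then q σ else q υ) hpow))
    {r : R} (hr : q r = 1) : ∃ k : ℤ, r = (σ ^ 2) ^ k := by
  set ζ : R := σ ^ 2 with hζ
  have hζσ : Commute ζ σ := (Commute.refl σ).pow_left 2
  have hζυ : Commute ζ υ := by rw [← hυ]; exact (Commute.refl υ).pow_left 3
  have hcentral : ∀ r : R, Commute ζ r := by
    intro r
    have hle : Subgroup.closure ({σ, υ} : Set R) ≤ Subgroup.centralizer {ζ} := by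
      rw [Subgroup.closure_le]
      rintro g (rfl | rfl)
      · rw [SetLike.mem_coe, Subgroup.mem_centralizer_iff]
        rintro h rfl
        exact hζσ.eq
      · rw [SetLike.mem_coe, Subgroup.mem_centralizer_iff]
        rintro h rfl
        exact hζυ.eq
    have hr : r ∈ Subgroup.centralizer {ζ} := hle (by rw [hgen]; trivial)
    rw [Subgroup.mem_centralizer_iff] at hr
    exact hr ζ rfl
  let Z : Subgroup R := Subgroup.zpowers ζ
  have hZn : Z.Normal := by
    constructor
    intro n hn g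
    obtain ⟨k, rfl⟩ := Subgroup.mem_zpowers_iff.mp hn
    have : Commute (ζ ^ k) g := (hcentral g).zpow_left k
    rw [← this.eq, mul_inv_cancel_right]
    exact hn
  let mk : R →* R ⧸ Z := QuotientGroup.mk' Z
  have hmkζ : mk ζ = 1 := (QuotientGroup.eq_one_iff ζ).mpr (Subgroup.mem_zpowers ζ)
  let gbar : Fin 2 → R ⧸ Z := fun i => mk (if i = 0 then σ else υ)
  have hgbar : ∀ i, gbar i ^ (i.val + 2) = 1 := by
    intro i
    fin_cases i
    · show mk σ ^ 2 = 1
      rw [← map_pow]; exact hmkζ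
    · show mk υ ^ 3 = 1
      rw [← map_pow, hυ]; exact hmkζ
  have hZle : Z ≤ q.ker := by
    rw [Subgroup.zpowers_le, MonoidHom.mem_ker]; exact hq
  let qbar : R ⧸ Z →* G' := QuotientGroup.lift Z q hZle
  have hcomp : qbar.comp (coprodHom gbar hgbar)
      = coprodHom (fun i : Fin 2 => if i = 0 then q σ else q υ) hpow := by
    rw [comp_coprodHom]
    apply coprodHom_congr
    funext i
    fin_cases i
    · show qbar (mk σ) = q σ
      rfl
    · show qbar (mk υ) = q υ
      rfl
  have hsurj : Function.Surjective (coprodHom gbar hgbar) := by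
    rw [← MonoidHom.range_eq_top, eq_top_iff]
    have h1 : (⊤ : Subgroup (R ⧸ Z)) = Subgroup.closure (mk '' ({σ, υ} : Set R)) := by
      rw [← MonoidHom.map_closure, hgen, ← MonoidHom.range_eq_map]
      exact (MonoidHom.range_eq_top.mpr (QuotientGroup.mk'_surjective Z)).symm
    rw [h1, Subgroup.closure_le]
    rintro _ ⟨g, (rfl | rfl), rfl⟩
    · exact ⟨_, coprodHom_of_one gbar hgbar 0⟩
    · exact ⟨_, coprodHom_of_one gbar hgbar 1⟩
  obtain ⟨a, ha⟩ := hsurj (mk r)
  have h1 : coprodHom (fun i : Fin 2 => if i = 0 then q σ else q υ) hpow a = 1 := by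
    rw [← hcomp, MonoidHom.comp_apply, ha]
    exact hr
  have ha1 : a = 1 := hinj (by rw [h1, map_one])
  rw [ha1, map_one] at ha
  have hrZ : r ∈ Z := (QuotientGroup.eq_one_iff r).mp ha.symm
  obtain ⟨k, hk⟩ := Subgroup.mem_zpowers_iff.mp hrZ
  exact ⟨k, hk.symm⟩

end abstract

/-- the permutation representation of `SL(2, ℤ)` on the upper half plane. -/
noncomputable def tau : SL(2, ℤ) →* Equiv.Perm ℍ := MulAction.toPermHom SL(2, ℤ) ℍ

lemma tau_apply (g : SL(2, ℤ)) (z : ℍ) : tau g z = g • z := rfl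

lemma tau_neg_one : tau (-1) = 1 := by
  ext z
  rw [tau_apply, SL_neg_smul, one_smul]
  rfl

/-- the pair `(S, U)` acting on the upper half plane. -/
noncomputable def gPerm (i : Fin 2) : Equiv.Perm ℍ := if i = 0 then tau S else tau U

lemma gPerm_pow (i : Fin 2) : gPerm i ^ (i.val + 2) = 1 := by
  fin_cases i
  · show (tau S) ^ 2 = 1
    rw [← map_pow, S_sq, tau_neg_one]
  · show (tau U) ^ 3 = 1
    rw [← map_pow, U_pow_three, S_sq, tau_neg_one]

/-- ping-pong sets: right and left half of the upper half plane -/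
def ppSet (i : Fin 2) : Set ℍ := if i = 0 then {z | 0 < z.re} else {z | z.re < 0}

theorem pingpong : Function.Injective (coprodHom gPerm gPerm_pow) := by
  unfold coprodHom
  apply Monoid.CoprodI.lift_injective_of_ping_pong (famHom gPerm gPerm_pow) ?_ ppSet ?_ ?_ ?_
  · right
    refine ⟨1, ?_⟩
    rw [Cardinal.mk_fintype]
    simp [ZMod.card]
  · intro i
    fin_cases i
    · refine ⟨UpperHalfPlane.mk ⟨1, 1⟩ (by simp), ?_⟩
      show (1 : ℝ) > 0
      norm_num
    · refine ⟨UpperHalfPlane.mk ⟨-1, 1⟩ (by simp), ?_⟩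
      show (-1 : ℝ) < 0
      norm_num
  · intro i j hij
    fin_cases i <;> fin_cases j
    · exact absurd rfl hij
    · simp only [Function.onFun, ppSet]
      rw [Set.disjoint_left]
      intro z hz hz'
      simp at hz hz'
      linarith
    · simp only [Function.onFun, ppSet]
      rw [Set.disjoint_left]
      intro z hz hz'
      simp at hz hz'
      linarith
    · exact absurd rfl hij
  · intro i j hij h hh
    rw [famHom_apply]
    have h1 := val_toAdd_ne_zero hh
    have h2 := val_toAdd_lt h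
    generalize ZMod.val (Multiplicative.toAdd h) = m at h1 h2
    rw [Set.smul_set_subset_iff]
    intro z hz
    rw [Equiv.Perm.smul_def]
    fin_cases i <;> fin_cases j
    · exact absurd rfl hij
    · have hm : m = 1 := by simp at h2; omega
      subst hm
      simp [ppSet] at hz ⊢
      simp [gPerm, tau_apply]
      exact re_S_smul_pos hz
    · simp [ppSet] at hz ⊢
      have hm : m = 1 ∨ m = 2 := by simp at h2; omega
      rcases hm with rfl | rfl
      · simp [gPerm, tau_apply]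
        exact re_U_smul_neg hz
      · have : gPerm 1 = tau U := rfl
        show ((gPerm 1 ^ 2) z).re < 0
        rw [this, ← map_pow, tau_apply]
        exact re_U_sq_smul_neg hz
    · exact absurd rfl hij


section main

lemma neg_one_ne_one : (-1 : SL(2, ℤ)) ≠ 1 := by
  intro h
  have := congrArg (fun g : SL(2, ℤ) => (g : Matrix (Fin 2) (Fin 2) ℤ) 0 0) h
  simp at this

/-- a group generated by two elements satisfying the relations of `S, U` which maps to `SL(2, ℤ)`
compatibly does so injectively. -/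
theorem injective_of_map_gens {R : Type*} [Group R] (σ υ : R)
    (hgen : Subgroup.closure ({σ, υ} : Set R) = ⊤) (hσ : σ ^ 4 = 1) (hυ : υ ^ 3 = σ ^ 2)
    (p : R →* SL(2, ℤ)) (hpσ : p σ = S) (hpυ : p υ = U) : Function.Injective p := by
  rw [injective_iff_map_eq_one]
  intro r hr
  let q : R →* Equiv.Perm ℍ := tau.comp p
  have hqσ : q σ = tau S := by rw [MonoidHom.comp_apply, hpσ]
  have hqυ : q υ = tau U := by rw [MonoidHom.comp_apply, hpυ]
  have hq : q (σ ^ 2) = 1 := by
    rw [map_pow, hqσ, ← map_pow, S_sq, tau_neg_one]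
  have hfun : (fun i : Fin 2 => if i = 0 then q σ else q υ) = gPerm := by
    funext i
    rw [hqσ, hqυ]; rfl
  have hpow : ∀ i : Fin 2, (if i = 0 then q σ else q υ) ^ (i.val + 2) = 1 := by
    intro i
    have := gPerm_pow i
    rw [← hfun] at this
    exact this
  have hinj : Function.Injective
      (coprodHom (fun i : Fin 2 => if i = 0 then q σ else q υ) hpow) := by
    rw [coprodHom_congr hfun hpow gPerm_pow]
    exact pingpong
  obtain ⟨k, hk⟩ := eq_one_or_eq_of_coprodHom_injective σ υ hgen hυ q hq hpow hinj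
    (r := r) (by rw [MonoidHom.comp_apply, hr, map_one])
  have hζ2 : (σ ^ 2) ^ (2 : ℤ) = 1 := by
    rw [zpow_ofNat, ← pow_mul]; exact hσ
  rcases Int.even_or_odd' k with ⟨m, rfl | rfl⟩
  · rw [hk, _root_.zpow_mul, hζ2, _root_.one_zpow]
  · exfalso
    rw [_root_.zpow_add, _root_.zpow_mul, hζ2, _root_.one_zpow, one_mul, _root_.zpow_one] at hk
    rw [hk, map_pow, hpσ, S_sq] at hr
    exact neg_one_ne_one hr

lemma closure_S_U : Subgroup.closure ({S, U} : Set SL(2, ℤ)) = ⊤ := by
  rw [eq_top_iff, ← SpecialLinearGroup.SL2Z_generators, Subgroup.closure_le]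
  rintro g (rfl | rfl)
  · exact Subgroup.subset_closure (by simp)
  · rw [SetLike.mem_coe, T_eq]
    exact mul_mem (inv_mem (Subgroup.subset_closure (by simp)))
      (Subgroup.subset_closure (by simp))

/-- **Presentation of `SL(2, ℤ)`**: for any group `Q` and `s u : Q` with `s ^ 4 = 1`,
`u ^ 3 = s ^ 2` there is a homomorphism `SL(2, ℤ) →* Q` with `S ↦ s` and `U = S * T ↦ u`. -/
theorem exists_hom {Q : Type*} [Group Q] (s u : Q) (hs : s ^ 4 = 1) (hu : u ^ 3 = s ^ 2) :
    ∃ φ : SL(2, ℤ) →* Q, φ S = s ∧ φ U = u := by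
  let R : Subgroup (SL(2, ℤ) × Q) := Subgroup.closure ({(S, s), (U, u)} : Set (SL(2, ℤ) × Q))
  have hσR : ((S, s) : SL(2, ℤ) × Q) ∈ R := Subgroup.subset_closure (by simp)
  have hυR : ((U, u) : SL(2, ℤ) × Q) ∈ R := Subgroup.subset_closure (by simp)
  let σ : R := ⟨(S, s), hσR⟩
  let υ : R := ⟨(U, u), hυR⟩
  have hgen : Subgroup.closure ({σ, υ} : Set R) = ⊤ := by
    have h := Subgroup.closure_closure_coe_preimage
      (k := ({(S, s), (U, u)} : Set (SL(2, ℤ) × Q)))
    have hset : ((↑) : R → SL(2, ℤ) × Q) ⁻¹' ({(S, s), (U, u)} : Set (SL(2, ℤ) × Q))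
        = {σ, υ} := by
      ext ⟨g, hg⟩
      simp only [Set.mem_preimage, Set.mem_insert_iff, Set.mem_singleton_iff, σ, υ,
        Subtype.mk.injEq]
    rw [hset] at h
    exact h
  have hσ : σ ^ 4 = 1 := by
    apply Subtype.ext
    show ((S, s) : SL(2, ℤ) × Q) ^ 4 = 1
    rw [Prod.pow_mk, S_pow_four, hs]; rfl
  have hυ : υ ^ 3 = σ ^ 2 := by
    apply Subtype.ext
    show ((U, u) : SL(2, ℤ) × Q) ^ 3 = ((S, s) : SL(2, ℤ) × Q) ^ 2
    rw [Prod.pow_mk, Prod.pow_mk, U_pow_three, hu]
  let p : R →* SL(2, ℤ) := (MonoidHom.fst SL(2, ℤ) Q).comp R.subtype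
  have hpσ : p σ = S := rfl
  have hpυ : p υ = U := rfl
  have hinj : Function.Injective p := injective_of_map_gens σ υ hgen hσ hυ p hpσ hpυ
  have hsurj : Function.Surjective p := by
    rw [← MonoidHom.range_eq_top, eq_top_iff, ← closure_S_U, Subgroup.closure_le]
    rintro g (rfl | rfl)
    · exact ⟨σ, hpσ⟩
    · exact ⟨υ, hpυ⟩
  let e : R ≃* SL(2, ℤ) := MulEquiv.ofBijective p ⟨hinj, hsurj⟩
  have heσ : e.symm S = σ := by
    rw [MulEquiv.symm_apply_eq]; rfl
  have heυ : e.symm U = υ := by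
    rw [MulEquiv.symm_apply_eq]; rfl
  refine ⟨(MonoidHom.snd SL(2, ℤ) Q).comp (R.subtype.comp e.symm.toMonoidHom), ?_, ?_⟩
  · show ((e.symm S : R) : SL(2, ℤ) × Q).2 = s
    rw [heσ]
  · show ((e.symm U : R) : SL(2, ℤ) × Q).2 = u
    rw [heυ]

/-- uniqueness: a homomorphism from `SL(2, ℤ)` is determined by its values on `S` and `U`. -/
theorem hom_ext {Q : Type*} [Group Q] {φ ψ : SL(2, ℤ) →* Q} (hS : φ S = ψ S) (hU : φ U = ψ U) :
    φ = ψ := by
  apply MonoidHom.eq_of_eqOn_dense closure_S_U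
  rintro g (rfl | rfl)
  · exact hS
  · exact hU

/-- version with `T`: for `s t : Q` with `s ^ 4 = 1` and `(s * t) ^ 3 = s ^ 2` there is a
homomorphism `SL(2, ℤ) →* Q` with `S ↦ s`, `T ↦ t`. -/
theorem exists_hom_S_T {Q : Type*} [Group Q] (s t : Q) (hs : s ^ 4 = 1)
    (hst : (s * t) ^ 3 = s ^ 2) : ∃ φ : SL(2, ℤ) →* Q, φ S = s ∧ φ T = t := by
  obtain ⟨φ, h1, h2⟩ := exists_hom s (s * t) hs hst
  refine ⟨φ, h1, ?_⟩
  rw [T_eq, map_mul, map_inv, h1, h2, inv_mul_cancel_left]

end main

end SL2Pres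
end Fermat.Agent.X0
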