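import Mathlib
import Fermat.Prelude.Def_ModularCurve_PeriodHomPair
import Fermat.Agent.S22.Cusp

/-!
# X0 / ES / E3: Eichler integrals of weight two cusp forms on `Γ₀(N)` and the period map

* `exists_hasEquivariantPrimitive`, `eichlerPrim`, `eichlerPrim_spec`, `eichlerPrim_unique`
* `periodMap_apply` : `periodMap N f γ = F_f (γ • z) - F_f z`
* `periodMapLinear`, `existsPeriodMapLinear`, `periodHomPair_eq`, `periodHomPair_apply`
* `periodMap_apply_eq_zero_of_trace`, `periodMap_mem_parabolicHoms`, `range_periodHomPair_le`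
-/

set_option autoImplicit false

open UpperHalfPlane hiding I
open Real Complex Derivative Filter Function CongruenceSubgroup ModularCurve ModularCurve.Period
open scoped Manifold MatrixGroups ModularForm Topology

namespace Fermat.Agent.X0

open Fermat.Agent.S22

/-- `HasDerivAt` version of the normalized derivative. -/
theorem hasDerivAt_of_D_eq {G g : ℍ → ℂ} (hG : MDiff G) (hD : D G = g) (τ : ℍ) :
    HasDerivAt (G ∘ ofComplex) (2 * π * I * g τ) τ := by
  have hdiff : DifferentiableAt ℂ (G ∘ ofComplex) τ :=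
    (UpperHalfPlane.mdifferentiable_iff.mp hG).differentiableAt
      (isOpen_upperHalfPlaneSet.mem_nhds τ.im_pos)
  have h2 : (2 * π * I : ℂ) ≠ 0 := by simp [Real.pi_ne_zero, Complex.I_ne_zero]
  have := congrFun hD τ
  simp only [normalizedDerivOfComplex] at this
  have h3 : deriv (G ∘ ofComplex) τ = 2 * π * I * g τ := by
    rw [← this]
    field_simp
  rw [← h3]
  exact hdiff.hasDerivAt

theorem D_eq_of_hasDerivAt {F f : ℍ → ℂ} (hF : ∀ τ : ℍ, HasDerivAt (F ∘ ofComplex) (f τ) τ) :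
    D F = fun τ => (2 * π * I)⁻¹ * f τ := by
  ext τ
  simp only [normalizedDerivOfComplex]
  rw [(hF τ).deriv]

theorem mdiff_of_hasDerivAt {F f : ℍ → ℂ} (hF : ∀ τ : ℍ, HasDerivAt (F ∘ ofComplex) (f τ) τ) :
    MDiff F := by
  rw [UpperHalfPlane.mdifferentiable_iff]
  intro z hz
  exact (hF ⟨z, hz⟩).differentiableAt.differentiableWithinAt

/-- Uniqueness of decaying primitives. -/
theorem primitive_unique {f F₁ F₂ : ℍ → ℂ}
    (h₁ : ∀ τ : ℍ, HasDerivAt (F₁ ∘ ofComplex) (f τ) τ) (h₁' : Tendsto F₁ atImInfty (𝓝 0))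
    (h₂ : ∀ τ : ℍ, HasDerivAt (F₂ ∘ ofComplex) (f τ) τ) (h₂' : Tendsto F₂ atImInfty (𝓝 0)) :
    F₁ = F₂ := by
  have hm₁ := mdiff_of_hasDerivAt h₁
  have hm₂ := mdiff_of_hasDerivAt h₂
  have hD : D (F₁ - F₂) = 0 := by
    rw [normalizedDerivOfComplex_sub _ _ hm₁ hm₂, D_eq_of_hasDerivAt h₁, D_eq_of_hasDerivAt h₂,
      sub_self]
  obtain ⟨c, hc⟩ := eq_const_of_D_eq_zero (hm₁.sub hm₂) hD
  have h3 : Tendsto (F₁ - F₂) atImInfty (𝓝 (0 - 0)) := h₁'.sub h₂'
  have h4 : Tendsto (F₁ - F₂) atImInfty (𝓝 c) := by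
    have : (F₁ - F₂) = fun _ => c := funext hc
    rw [this]
    exact tendsto_const_nhds
  have hc0 : c = 0 := by
    have := tendsto_nhds_unique h4 h3
    simpa using this
  ext z
  have := hc z
  rw [hc0] at this
  simpa [sub_eq_zero] using this


theorem slash_zero_SL_apply (F : ℍ → ℂ) (γ : SL(2, ℤ)) (z : ℍ) :
    (F ∣[(0 : ℤ)] γ) z = F (γ • z) := by
  rw [ModularForm.SL_slash_apply]
  simp

theorem mdiff_SL_slash {F : ℍ → ℂ} (hF : MDiff F) (k : ℤ) (σ : SL(2, ℤ)) :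
    MDiff (F ∣[k] σ) := hF.slash _ _

theorem D_slash_zero_SL {F : ℍ → ℂ} (hF : MDiff F) (σ : SL(2, ℤ)) :
    D (F ∣[(0 : ℤ)] σ) = (D F) ∣[(2 : ℤ)] σ := by
  have h := bol_of_det_eq_one 1 hF (det_mapGL_val σ)
  have e1 : ((1 : ℤ) - ((1 : ℕ) : ℤ)) = 0 := by norm_num
  have e2 : (((1 : ℕ) : ℤ) + 1) = 2 := by norm_num
  rw [e1, e2] at h
  exact h

/-- The `D`-primitive of a weight two cusp form on `Γ₀(N)`: behaviour under `SL(2, ℤ)`. -/
theorem exists_D_primitive_cuspForm (N : ℕ) [NeZero N] (f : CuspForm (Gamma0 N) 2) :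
    ∃ G : ℍ → ℂ, MDiff G ∧ IsZeroAtImInfty G ∧ D G = f ∧
      (∀ γ ∈ Gamma0 N, ∃ c : ℂ, ∀ z : ℍ, G (γ • z) - G z = c) ∧
      (∀ σ : SL(2, ℤ), ∃ (H₀ : ℍ → ℂ) (L : ℂ), IsZeroAtImInfty H₀ ∧
        ∀ z : ℍ, G (σ • z) = H₀ z + L) := by
  have hper : Periodic ((f : ℍ → ℂ) ∘ ofComplex) ((1 : ℝ) : ℂ) :=
    SlashInvariantFormClass.periodic_comp_ofComplex f
      (CongruenceSubgroup.one_mem_strictPeriods_Gamma0 N)
  have hf0 : IsZeroAtImInfty (f : ℍ → ℂ) := by
    have := CuspFormClass.zero_at_infty_slash f (1 : SL(2, ℤ))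
    simpa using this
  obtain ⟨G, hGd, -, hG0, hDG⟩ := exists_primitive one_pos (CuspFormClass.holo f) hper hf0
  refine ⟨G, hGd, hG0, hDG, ?_, ?_⟩
  · intro γ hγ
    have hs := mdiff_SL_slash hGd 0 γ
    have h1 : D (G ∣[(0 : ℤ)] γ - G) = 0 := by
      rw [normalizedDerivOfComplex_sub _ _ hs hGd, D_slash_zero_SL hGd, hDG,
        cuspForm_slash_SL_eq_self f γ hγ, sub_self]
    obtain ⟨c, hc⟩ := eq_const_of_D_eq_zero (hs.sub hGd) h1
    refine ⟨c, fun z => ?_⟩
    have := hc z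
    simp only [Pi.sub_apply, slash_zero_SL_apply] at this
    exact this
  · intro σ
    set g : ℍ → ℂ := (f : ℍ → ℂ) ∣[(2 : ℤ)] σ with hg
    have hgd : MDiff g := mdiff_SL_slash (CuspFormClass.holo f) 2 σ
    have hg0 : IsZeroAtImInfty g := CuspFormClass.zero_at_infty_slash f σ
    have hNpos : (0 : ℝ) < N := by exact_mod_cast Nat.pos_of_ne_zero (NeZero.ne N)
    have hgper : Periodic (g ∘ ofComplex) ((N : ℝ) : ℂ) := by
      have := periodic_of_slash_T_zpow
        (slash_conj_T_pow (κ := (2 : ℤ)) (fun γ hγ => cuspForm_slash_SL_eq_self f γ hγ) σ)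
      simpa using this
    obtain ⟨H₀, hH₀d, -, hH₀0, hDH₀⟩ := exists_primitive hNpos hgd hgper hg0
    have hs := mdiff_SL_slash hGd 0 σ
    have h1 : D (G ∣[(0 : ℤ)] σ - H₀) = 0 := by
      rw [normalizedDerivOfComplex_sub _ _ hs hH₀d, D_slash_zero_SL hGd, hDG,
        hDH₀, sub_self]
    obtain ⟨L, hL⟩ := eq_const_of_D_eq_zero (hs.sub hH₀d) h1
    refine ⟨H₀, L, hH₀0, fun z => ?_⟩
    have := hL z
    simp only [Pi.sub_apply, slash_zero_SL_apply] at this
    linear_combination this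


/-- **Existence of equivariant primitives** of weight two cusp forms on `Γ₀(N)`. -/
theorem exists_hasEquivariantPrimitive (N : ℕ) [NeZero N] (f : CuspForm (Gamma0 N) 2) :
    ∃ F : ℍ → ℂ, HasEquivariantPrimitive N f F := by
  obtain ⟨G, hGd, hG0, hDG, hinv, hcusp⟩ := exists_D_primitive_cuspForm N f
  have h2 : (2 * π * I : ℂ) ≠ 0 := by simp [Real.pi_ne_zero, Complex.I_ne_zero]
  refine ⟨fun τ => (2 * π * I)⁻¹ * G τ, ?_, ?_, ?_, ?_⟩
  · intro τ
    have h1 := (hasDerivAt_of_D_eq hGd hDG τ).const_mul ((2 * π * I : ℂ)⁻¹)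
    have h3 : (2 * π * I : ℂ)⁻¹ * (2 * π * I * f τ) = f τ := by field_simp
    rw [h3] at h1
    exact h1
  · have : Tendsto G atImInfty (𝓝 0) := hG0
    have := this.const_mul ((2 * π * I : ℂ)⁻¹)
    simpa using this
  · intro γ
    obtain ⟨c, hc⟩ := hinv γ γ.2
    refine ⟨(2 * π * I)⁻¹ * c, fun z => ?_⟩
    rw [← hc z]
    ring
  · intro δ
    obtain ⟨H₀, L, hH₀, hL⟩ := hcusp δ
    refine ⟨(2 * π * I)⁻¹ * (0 + L), ?_⟩
    have h1 : Tendsto H₀ atImInfty (𝓝 0) := hH₀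
    have h2 : Tendsto (fun w : ℍ => H₀ w + L) atImInfty (𝓝 (0 + L)) := h1.add_const L
    have h3 := h2.const_mul ((2 * π * I : ℂ)⁻¹)
    refine h3.congr fun w => ?_
    show _ = (2 * π * I : ℂ)⁻¹ * G (δ • w)
    rw [hL w]

/-- The Eichler integral `τ ↦ ∫_{i∞}^τ f` of a weight two cusp form. -/
noncomputable def eichlerPrim (N : ℕ) [NeZero N] (f : CuspForm (Gamma0 N) 2) : ℍ → ℂ :=
  Classical.choose (exists_hasEquivariantPrimitive N f)

theorem eichlerPrim_spec (N : ℕ) [NeZero N] (f : CuspForm (Gamma0 N) 2) :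
    HasEquivariantPrimitive N f (eichlerPrim N f) :=
  Classical.choose_spec (exists_hasEquivariantPrimitive N f)

theorem eichlerPrim_hasDerivAt (N : ℕ) [NeZero N] (f : CuspForm (Gamma0 N) 2) (τ : ℍ) :
    HasDerivAt (eichlerPrim N f ∘ ofComplex) (f τ) τ := (eichlerPrim_spec N f).1 τ

theorem eichlerPrim_tendsto (N : ℕ) [NeZero N] (f : CuspForm (Gamma0 N) 2) :
    Tendsto (eichlerPrim N f) atImInfty (𝓝 0) := (eichlerPrim_spec N f).2.1

theorem eichlerPrim_mdiff (N : ℕ) [NeZero N] (f : CuspForm (Gamma0 N) 2) :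
    MDiff (eichlerPrim N f) := mdiff_of_hasDerivAt (eichlerPrim_hasDerivAt N f)

theorem eichlerPrim_unique (N : ℕ) [NeZero N] (f : CuspForm (Gamma0 N) 2) {F : ℍ → ℂ}
    (h₁ : ∀ τ : ℍ, HasDerivAt (F ∘ ofComplex) (f τ) τ) (h₂ : Tendsto F atImInfty (𝓝 0)) :
    F = eichlerPrim N f :=
  primitive_unique h₁ h₂ (eichlerPrim_hasDerivAt N f) (eichlerPrim_tendsto N f)

/-- The explicit formula for the period map. -/
theorem periodMap_apply (N : ℕ) [NeZero N] (f : CuspForm (Gamma0 N) 2) (γ : Gamma0 N) (z : ℍ) :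
    periodMap N f (Additive.ofMul γ) =
      eichlerPrim N f ((γ : SL(2, ℤ)) • z) - eichlerPrim N f z := by
  obtain ⟨F₀, h₀, heq⟩ := periodMap_def N f (eichlerPrim_spec N f)
  have hF₀ : F₀ = eichlerPrim N f := eichlerPrim_unique N f h₀.1 h₀.2.1
  rw [heq, IsEquivariantPrimitive.periodHom_apply, ← h₀.2.2.1.sub_eq_period γ z, hF₀]

theorem eichlerPrim_add (N : ℕ) [NeZero N] (f g : CuspForm (Gamma0 N) 2) :
    eichlerPrim N (f + g) = eichlerPrim N f + eichlerPrim N g := by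
  symm
  apply eichlerPrim_unique
  · intro τ
    have := (eichlerPrim_hasDerivAt N f τ).add (eichlerPrim_hasDerivAt N g τ)
    exact this
  · have := (eichlerPrim_tendsto N f).add (eichlerPrim_tendsto N g)
    rw [add_zero] at this
    exact this

theorem eichlerPrim_smul (N : ℕ) [NeZero N] (c : ℂ) (f : CuspForm (Gamma0 N) 2) :
    eichlerPrim N (c • f) = c • eichlerPrim N f := by
  symm
  apply eichlerPrim_unique
  · intro τ
    have := (eichlerPrim_hasDerivAt N f τ).const_mul c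
    exact this
  · have := (eichlerPrim_tendsto N f).const_mul c
    rw [mul_zero] at this
    exact this

theorem periodMap_add (N : ℕ) [NeZero N] (f g : CuspForm (Gamma0 N) 2) :
    periodMap N (f + g) = periodMap N f + periodMap N g := by
  refine AddMonoidHom.ext fun γ => ?_
  obtain ⟨γ, rfl⟩ := Additive.ofMul.surjective γ
  rw [AddMonoidHom.add_apply, periodMap_apply N _ γ UpperHalfPlane.I,
    periodMap_apply N _ γ UpperHalfPlane.I, periodMap_apply N _ γ UpperHalfPlane.I,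
    eichlerPrim_add]
  simp only [Pi.add_apply]
  ring

theorem periodMap_smul (N : ℕ) [NeZero N] (c : ℂ) (f : CuspForm (Gamma0 N) 2) :
    periodMap N (c • f) = c • periodMap N f := by
  refine AddMonoidHom.ext fun γ => ?_
  obtain ⟨γ, rfl⟩ := Additive.ofMul.surjective γ
  rw [AddMonoidHom.smul_apply, periodMap_apply N _ γ UpperHalfPlane.I,
    periodMap_apply N _ γ UpperHalfPlane.I, eichlerPrim_smul]
  simp only [Pi.smul_apply, smul_eq_mul]
  ring

/-- The period map as a linear map. -/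
noncomputable def periodMapLinear (N : ℕ) [NeZero N] :
    CuspForm (Gamma0 N) 2 →ₗ[ℂ] (Additive (Gamma0 N) →+ ℂ) where
  toFun := periodMap N
  map_add' := periodMap_add N
  map_smul' := periodMap_smul N

@[simp] theorem periodMapLinear_apply (N : ℕ) [NeZero N] (f : CuspForm (Gamma0 N) 2) :
    periodMapLinear N f = periodMap N f := rfl

theorem existsPeriodMapLinear (N : ℕ) [NeZero N] : ExistsPeriodMapLinear N :=
  ⟨periodMapLinear N, fun _ => rfl⟩


/-- An element of `SL(2, ℤ)` whose trace is `±2` is conjugate to an upper triangular matrix. -/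
theorem exists_conj_lowerLeft_eq_zero (γ : SL(2, ℤ))
    (h : (γ : Matrix (Fin 2) (Fin 2) ℤ).trace ^ 2 = 4) :
    ∃ δ : SL(2, ℤ), (δ⁻¹ * γ * δ) 1 0 = 0 := by
  have hdet : γ 0 0 * γ 1 1 - γ 0 1 * γ 1 0 = 1 := by
    have := γ.det_coe
    rwa [Matrix.det_fin_two] at this
  rw [Matrix.trace_fin_two] at h
  by_cases hc : γ 1 0 = 0
  · exact ⟨1, by simpa using hc⟩
  -- `ε = ±1` is the eigenvalue
  obtain ⟨ε, hε, htr⟩ : ∃ ε : ℤ, ε * ε = 1 ∧ γ 0 0 + γ 1 1 = 2 * ε := by
    have : (γ 0 0 + γ 1 1 - 2) * (γ 0 0 + γ 1 1 + 2) = 0 := by linear_combination h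
    rcases mul_eq_zero.mp this with h' | h'
    · exact ⟨1, by norm_num, by linarith⟩
    · exact ⟨-1, by norm_num, by linarith⟩
  have hg : 0 < Int.gcd (γ 0 0 - ε) (γ 1 0) := Int.gcd_pos_of_ne_zero_right _ hc
  obtain ⟨p, q, hpq, hp, hq⟩ := Int.exists_gcd_one hg
  set g : ℤ := (Int.gcd (γ 0 0 - ε) (γ 1 0) : ℤ) with hgdef
  have hg0 : g ≠ 0 := by positivity
  have hcop : IsCoprime p q := Int.isCoprime_iff_gcd_eq_one.mpr hpq
  obtain ⟨δ, h00, h10⟩ := hcop.exists_SL2_col 0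
  refine ⟨δ, ?_⟩
  have hinv : (δ⁻¹ : SL(2, ℤ)) 1 0 = - δ 1 0 ∧ (δ⁻¹ : SL(2, ℤ)) 1 1 = δ 0 0 := by
    rw [Matrix.SpecialLinearGroup.SL2_inv_expl]
    simp
  have hkey : (δ⁻¹ * γ * δ) 1 0 =
      -q * (γ 0 0 * p + γ 0 1 * q) + p * (γ 1 0 * p + γ 1 1 * q) := by
    simp only [Matrix.SpecialLinearGroup.coe_mul, Matrix.mul_apply, Fin.sum_univ_two, hinv.1,
      hinv.2, h00, h10]
    ring
  rw [hkey]
  have : g * g * (-q * (γ 0 0 * p + γ 0 1 * q) + p * (γ 1 0 * p + γ 1 1 * q)) = 0 := by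
    have e1 : γ 0 0 = p * g + ε := by linarith
    have e2 : γ 1 0 = q * g := hq
    have e3 : γ 1 1 = ε - p * g := by linarith
    rw [e1, e2, e3] at hdet
    rw [e1, e2, e3]
    linear_combination (q * g) * hdet - (q * g) * hε
  rcases mul_eq_zero.mp this with h' | h'
  · exact absurd (mul_self_eq_zero.mp h') hg0
  · exact h'


theorem im_smul_of_lowerLeft_eq_zero (g : SL(2, ℤ)) (h : g 1 0 = 0) (w : ℍ) :
    (g • w).im = w.im := by
  have hdet : g 0 0 * g 1 1 - g 0 1 * g 1 0 = 1 := by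
    have := g.det_coe
    rwa [Matrix.det_fin_two] at this
  rw [h, mul_zero, sub_zero] at hdet
  have h11 : g 1 1 * g 1 1 = 1 := by
    rcases Int.isUnit_iff.mp (IsUnit.of_mul_eq_one_right _ hdet) with h' | h' <;> rw [h'] <;> norm_num
  rw [ModularGroup.im_smul_eq_div_normSq, ModularGroup.denom_apply, h]
  have : Complex.normSq (((0 : ℤ) : ℂ) * (w : ℂ) + ((g 1 1 : ℤ) : ℂ)) = 1 := by
    rw [Int.cast_zero, zero_mul, zero_add, Complex.normSq_intCast]
    exact_mod_cast h11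
  rw [this, div_one]

theorem tendsto_smul_atImInfty_of_lowerLeft_eq_zero (g : SL(2, ℤ)) (h : g 1 0 = 0) :
    Tendsto (fun w : ℍ => g • w) atImInfty atImInfty := by
  rw [atImInfty, tendsto_comap_iff]
  have : (UpperHalfPlane.im ∘ fun w : ℍ => g • w) = UpperHalfPlane.im :=
    funext (im_smul_of_lowerLeft_eq_zero g h)
  rw [this]
  exact tendsto_comap


/-- The periods of a cusp form vanish on the elements of trace `±2`. -/
theorem periodMap_apply_eq_zero_of_trace (N : ℕ) [NeZero N] (f : CuspForm (Gamma0 N) 2)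
    (γ : Gamma0 N)
    (h : ((γ : SL(2, ℤ)) : Matrix (Fin 2) (Fin 2) ℤ).trace ^ 2 = 4) :
    periodMap N f (Additive.ofMul γ) = 0 := by
  obtain ⟨δ, hδ⟩ := exists_conj_lowerLeft_eq_zero (γ : SL(2, ℤ)) h
  set g : SL(2, ℤ) := δ⁻¹ * (γ : SL(2, ℤ)) * δ with hg
  obtain ⟨L, hL⟩ := (eichlerPrim_spec N f).2.2.2 δ
  have h1 : Tendsto (fun w : ℍ => eichlerPrim N f (δ • (g • w))) atImInfty (𝓝 L) :=
    hL.comp (tendsto_smul_atImInfty_of_lowerLeft_eq_zero g hδ)
  have h2 : ∀ w : ℍ, eichlerPrim N f (δ • (g • w)) - eichlerPrim N f (δ • w) =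
      periodMap N f (Additive.ofMul γ) := by
    intro w
    rw [periodMap_apply N f γ (δ • w), ← mul_smul, ← mul_smul, hg]
    congr 3
    group
  have h3 : Tendsto (fun _ : ℍ => periodMap N f (Additive.ofMul γ)) atImInfty (𝓝 (L - L)) := by
    refine (h1.sub hL).congr fun w => ?_
    exact h2 w
  have := tendsto_nhds_unique tendsto_const_nhds h3
  rw [this, sub_self]

theorem periodMap_mem_parabolicHoms (N : ℕ) [NeZero N] (f : CuspForm (Gamma0 N) 2) :
    periodMap N f ∈ parabolicHoms ℂ (Gamma0 N) ℂ :=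
  fun γ hγ => periodMap_apply_eq_zero_of_trace N f γ hγ

theorem periodHomPair_eq (N : ℕ) [NeZero N] :
    periodHomPair N = LinearMap.coprod
        ((LinearMap.id + charInvolution N ℂ ℂ) ∘ₗ periodMapLinear N)
        ((LinearMap.id - charInvolution N ℂ ℂ) ∘ₗ periodMapLinear N) := by
  obtain ⟨pml, hpml, heq⟩ := periodHomPair_def N (existsPeriodMapLinear N)
  have : pml = periodMapLinear N := LinearMap.ext fun f => by rw [hpml f, periodMapLinear_apply]
  rw [heq, this]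

theorem periodHomPair_apply (N : ℕ) [NeZero N] (f g : CuspForm (Gamma0 N) 2) :
    periodHomPair N (f, g) =
      (periodMap N f + charInvolution N ℂ ℂ (periodMap N f)) +
        (periodMap N g - charInvolution N ℂ ℂ (periodMap N g)) := by
  rw [periodHomPair_eq]
  simp

theorem range_periodHomPair_le (N : ℕ) [NeZero N] :
    LinearMap.range (periodHomPair N) ≤ parabolicHoms ℂ (Gamma0 N) ℂ := by
  rintro _ ⟨⟨f, g⟩, rfl⟩
  rw [periodHomPair_apply]
  have hf := periodMap_mem_parabolicHoms N f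
  have hg := periodMap_mem_parabolicHoms N g
  exact Submodule.add_mem _
    (Submodule.add_mem _ hf (charInvolution_mem_parabolicHoms N ℂ ℂ hf))
    (Submodule.sub_mem _ hg (charInvolution_mem_parabolicHoms N ℂ ℂ hg))

end Fermat.Agent.X0
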