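import Mathlib
import Fermat.Prelude.Def_ModularCurve_PeriodHomPair

/-!
# Injectivity of the Eichler–Shimura period pairing (package `E4` of the `X0(N)` blueprint)
-/

set_option autoImplicit false

open UpperHalfPlane CongruenceSubgroup Filter Function
open scoped Real Topology Manifold MatrixGroups ComplexConjugate

open ModularCurve ModularCurve.Period

namespace Fermat.Agent.X0

local notation "𝕢" => Periodic.qParam

/-! ### Group theory: coset representatives and conjugates of translations -/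

/-- Finitely many representatives for `Γ₀(N) \ SL(2, ℤ)`. -/
theorem exists_finset_coset_reps (N : ℕ) [NeZero N] :
    ∃ S : Finset SL(2, ℤ), ∀ g : SL(2, ℤ), ∃ δ ∈ S, ∃ γ ∈ Gamma0 N, g = γ * δ := by
  classical
  have : Finite (SL(2, ℤ) ⧸ Gamma0 N) := Subgroup.finite_quotient_of_finiteIndex
  have := Fintype.ofFinite (SL(2, ℤ) ⧸ Gamma0 N)
  refine ⟨Finset.univ.image (fun x : SL(2, ℤ) ⧸ Gamma0 N => (Quotient.out x)⁻¹), fun g => ?_⟩
  refine ⟨(Quotient.out (QuotientGroup.mk g⁻¹ : SL(2, ℤ) ⧸ Gamma0 N))⁻¹,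
    Finset.mem_image_of_mem _ (Finset.mem_univ _), ?_⟩
  obtain ⟨h, hh⟩ := QuotientGroup.mk_out_eq_mul (Gamma0 N) g⁻¹
  refine ⟨h, h.2, ?_⟩
  rw [hh]
  group

/-- `δ T^N δ⁻¹ ∈ Γ₀(N)`. -/
theorem conj_T_pow_mem_Gamma0 (N : ℕ) (δ : SL(2, ℤ)) :
    δ * ModularGroup.T ^ (N : ℤ) * δ⁻¹ ∈ Gamma0 N := by
  have hT : ModularGroup.T ^ (N : ℤ) ∈ Gamma N := by
    rw [Gamma_mem, ModularGroup.coe_T_zpow]
    simp
  have h := (Gamma_normal N).conj_mem _ hT δ
  rw [Gamma_mem] at h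
  rw [Gamma0_mem]
  exact h.2.2.1

theorem smul_vadd_eq (N : ℕ) (δ : SL(2, ℤ)) (w : ℍ) :
    δ • ((N : ℝ) +ᵥ w) = (δ * ModularGroup.T ^ (N : ℤ) * δ⁻¹) • (δ • w) := by
  rw [mul_smul, mul_smul, inv_smul_smul, modular_T_zpow_smul]
  simp

/-! ### The maximum modulus argument on `X₀(N)` -/

/-- A function on `ℍ` whose absolute value is `Γ₀(N)`-invariant and which extends holomorphically
over every cusp is constant. -/
theorem const_of_norm_invariant (N : ℕ) [NeZero N] (E : ℍ → ℂ)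
    (hinv : ∀ γ ∈ Gamma0 N, ∀ z : ℍ, ‖E (γ • z)‖ = ‖E z‖)
    (G : SL(2, ℤ) → ℂ → ℂ) (hGd : ∀ δ, DifferentiableOn ℂ (G δ) (Metric.ball 0 1))
    (hGeq : ∀ δ (w : ℍ), G δ (𝕢 N w) = E (δ • w)) :
    ∃ c : ℂ, ∀ z : ℍ, E z = c := by
  have hNpos : (0 : ℝ) < N := Nat.cast_pos.mpr (NeZero.pos N)
  obtain ⟨S, hS⟩ := exists_finset_coset_reps N
  set r : ℝ := Real.exp (-π / N) with hr
  have hr1 : r < 1 := by
    rw [hr, Real.exp_lt_one_iff]
    exact div_neg_of_neg_of_pos (neg_lt_zero.mpr Real.pi_pos) hNpos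
  have hr0 : 0 < r := Real.exp_pos _
  have hmax : ∀ δ : SL(2, ℤ), ∃ q ∈ Metric.closedBall (0 : ℂ) r,
      IsMaxOn (fun q => ‖G δ q‖) (Metric.closedBall (0 : ℂ) r) q := by
    intro δ
    have hK : IsCompact (Metric.closedBall (0 : ℂ) r) := isCompact_closedBall 0 r
    have hne : (Metric.closedBall (0 : ℂ) r).Nonempty := ⟨0, by simp [hr0.le]⟩
    have hcont : ContinuousOn (fun q => ‖G δ q‖) (Metric.closedBall (0 : ℂ) r) :=
      ((hGd δ).continuousOn.mono (Metric.closedBall_subset_ball hr1)).norm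
    exact hK.exists_isMaxOn hne hcont
  choose qm hqm_mem hqm_max using hmax
  have hSne : S.Nonempty := by
    obtain ⟨δ, hδ, _⟩ := hS 1
    exact ⟨δ, hδ⟩
  obtain ⟨δ₀, hδ₀S, hδ₀⟩ := Finset.exists_max_image S (fun δ => ‖G δ (qm δ)‖) hSne
  have hbound : ∀ z : ℍ, ‖E z‖ ≤ ‖G δ₀ (qm δ₀)‖ := by
    intro z
    obtain ⟨g, hg⟩ := ModularGroup.exists_one_half_le_im_smul z
    obtain ⟨δ, hδS, γ, hγ, hgγ⟩ := hS g⁻¹
    have hz : z = γ • δ • (g • z) := by rw [← mul_smul, ← hgγ, inv_smul_smul]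
    rw [hz, hinv γ hγ, ← hGeq]
    have hq : 𝕢 N (g • z : ℍ) ∈ Metric.closedBall (0 : ℂ) r := by
      rw [mem_closedBall_zero_iff, Periodic.norm_qParam, hr]
      apply Real.exp_le_exp.mpr
      rw [div_le_div_iff_of_pos_right hNpos]
      have : (1 : ℝ) / 2 ≤ ((g • z : ℍ) : ℂ).im := hg
      nlinarith [Real.pi_pos]
    exact (hqm_max δ hq).trans (hδ₀ δ hδS)
  have hne0 : ∀ q ∈ Metric.ball (0 : ℂ) 1, q ≠ 0 → ‖G δ₀ q‖ ≤ ‖G δ₀ (qm δ₀)‖ := by
    intro q hq hq0
    have him := Periodic.im_invQParam_pos_of_norm_lt_one hNpos (mem_ball_zero_iff.mp hq) hq0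
    have h1 := hGeq δ₀ ⟨Periodic.invQParam N q, him⟩
    rw [UpperHalfPlane.coe_mk, Periodic.qParam_right_inv hNpos.ne' hq0] at h1
    rw [h1]
    exact hbound _
  have hmaxball : IsMaxOn (norm ∘ G δ₀) (Metric.ball 0 1) (qm δ₀) := by
    intro q hq
    show ‖G δ₀ q‖ ≤ ‖G δ₀ (qm δ₀)‖
    by_cases hq0 : q = 0
    · subst hq0
      have hcont : ContinuousAt (G δ₀) 0 :=
        ((hGd δ₀).differentiableAt (Metric.ball_mem_nhds 0 one_pos)).continuousAt
      have ht : Tendsto (fun q => ‖G δ₀ q‖) (𝓝[≠] 0) (𝓝 ‖G δ₀ 0‖) :=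
        (hcont.norm.tendsto).mono_left nhdsWithin_le_nhds
      refine le_of_tendsto ht ?_
      have h1 : ∀ᶠ q in 𝓝[≠] (0 : ℂ), q ∈ Metric.ball (0 : ℂ) 1 :=
        eventually_nhdsWithin_of_eventually_nhds (Metric.ball_mem_nhds 0 one_pos)
      filter_upwards [h1, self_mem_nhdsWithin] with q hq hq0
      exact hne0 q hq hq0
    · exact hne0 q hq hq0
  have hconst := Complex.eqOn_of_isPreconnected_of_isMaxOn_norm
    (convex_ball (0 : ℂ) 1).isPreconnected Metric.isOpen_ball (hGd δ₀)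
    (Metric.closedBall_subset_ball hr1 (hqm_mem δ₀)) hmaxball
  refine ⟨G δ₀ (qm δ₀), fun z => ?_⟩
  have h1 := hGeq δ₀ (δ₀⁻¹ • z)
  rw [smul_inv_smul] at h1
  rw [← h1]
  exact hconst (mem_ball_zero_iff.mpr (Periodic.norm_qParam_lt_one hNpos (δ₀⁻¹ • z).im_pos))

/-- Real translations preserve the filter `atImInfty`. -/
theorem tendsto_vadd_atImInfty' (x : ℝ) :
    Tendsto (fun w : ℍ => x +ᵥ w) atImInfty atImInfty := by
  rw [atImInfty, tendsto_comap_iff]
  have : (UpperHalfPlane.im ∘ fun w : ℍ => x +ᵥ w) = UpperHalfPlane.im := by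
    funext w
    simp [vadd_im]
  rw [this]
  exact tendsto_comap

/-- **Key analytic lemma.** A holomorphic function on `ℍ` whose real part is `Γ₀(N)`-invariant
(the function itself changing by additive constants) and which has a limit at every cusp has
vanishing derivative. -/
theorem hasDerivAt_eq_zero_of_re_invariant (N : ℕ) [NeZero N] (Φ : ℍ → ℂ) (hΦ : MDiff Φ)
    (hinv : ∀ γ ∈ Gamma0 N, ∃ κ : ℂ, κ.re = 0 ∧ ∀ z : ℍ, Φ (γ • z) - Φ z = κ)
    (hlim : ∀ δ : SL(2, ℤ), ∃ L : ℂ, Tendsto (fun w : ℍ => Φ (δ • w)) atImInfty (𝓝 L))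
    (τ : ℍ) (Φ' : ℂ) (hd : HasDerivAt (Φ ∘ ofComplex) Φ' τ) : Φ' = 0 := by
  have hNpos : (0 : ℝ) < N := Nat.cast_pos.mpr (NeZero.pos N)
  have key : ∀ δ : SL(2, ℤ), ∃ G : ℂ → ℂ, DifferentiableOn ℂ G (Metric.ball 0 1) ∧
      ∀ w : ℍ, G (𝕢 N w) = Complex.exp (Φ (δ • w)) := by
    intro δ
    set Ψ : ℍ → ℂ := fun w => Φ (δ • w) with hΨ
    obtain ⟨L, hL⟩ := hlim δ
    have hΨd : MDiff Ψ := by
      have hdet : 0 < ((δ : GL (Fin 2) ℝ)).det.val := by simp
      exact hΦ.comp (mdifferentiable_smul hdet)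
    have hshift : ∀ w : ℍ, Ψ ((N : ℝ) +ᵥ w) = Ψ w := by
      obtain ⟨κ, hκre, hκ⟩ := hinv _ (conj_T_pow_mem_Gamma0 N δ)
      have hκ' : ∀ w : ℍ, Ψ ((N : ℝ) +ᵥ w) - Ψ w = κ := by
        intro w
        simp only [hΨ]
        rw [smul_vadd_eq]
        exact hκ _
      have h1 : Tendsto (fun w : ℍ => Ψ ((N : ℝ) +ᵥ w) - Ψ w) atImInfty (𝓝 (L - L)) :=
        (hL.comp (tendsto_vadd_atImInfty' _)).sub hL
      have h2 : Tendsto (fun w : ℍ => Ψ ((N : ℝ) +ᵥ w) - Ψ w) atImInfty (𝓝 κ) := by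
        simp only [hκ']
        exact tendsto_const_nhds
      have hκ0 : κ = 0 := by simpa using tendsto_nhds_unique h2 h1
      intro w
      have h3 := hκ' w
      rw [hκ0] at h3
      exact sub_eq_zero.mp h3
    have hper : Periodic (Ψ ∘ ofComplex) N := by
      intro z
      by_cases hz : 0 < z.im
      · have hz' : 0 < (z + N).im := by simpa using hz
        simp only [comp_apply, ofComplex_apply_of_im_pos hz', ofComplex_apply_of_im_pos hz]
        have h4 : (⟨z + N, hz'⟩ : ℍ) = (N : ℝ) +ᵥ (⟨z, hz⟩ : ℍ) := by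
          ext
          simp [add_comm]
        rw [h4, hshift]
      · have hz0 : z.im ≤ 0 := not_lt.mp hz
        have hz1 : (z + N).im ≤ 0 := by simpa using hz0
        simp [ofComplex_apply_of_im_nonpos hz1, ofComplex_apply_of_im_nonpos hz0]
    have hbdd : IsBoundedAtImInfty Ψ := hL.isBigO_one ℝ
    refine ⟨fun q => Complex.exp (cuspFunction N Ψ q), ?_, fun w => ?_⟩
    · exact (differentiableOn_cuspFunction_ball hNpos hper hΨd hbdd).cexp
    · simp only
      rw [eq_cuspFunction w hNpos.ne' hper]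
  choose G hGd hGeq using key
  have hE : ∀ γ ∈ Gamma0 N, ∀ z : ℍ, ‖Complex.exp (Φ (γ • z))‖ = ‖Complex.exp (Φ z)‖ := by
    intro γ hγ z
    obtain ⟨κ, hκre, hκ⟩ := hinv γ hγ
    have h5 : Φ (γ • z) = Φ z + κ := by
      rw [← hκ z]
      ring
    simp only [h5, Complex.norm_exp, Complex.add_re, hκre, add_zero]
  obtain ⟨c, hc⟩ := const_of_norm_invariant N (fun z => Complex.exp (Φ z)) hE G hGd hGeq
  have h1 : HasDerivAt (fun z : ℂ => Complex.exp ((Φ ∘ ofComplex) z))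
      (Complex.exp ((Φ ∘ ofComplex) τ) * Φ') τ := hd.cexp
  have h2 : (fun z : ℂ => Complex.exp ((Φ ∘ ofComplex) z)) = fun _ => c := by
    funext z
    exact hc (ofComplex z)
  rw [h2] at h1
  have h3 := h1.unique (hasDerivAt_const (τ : ℂ) c)
  exact (mul_eq_zero.mp h3).resolve_left (Complex.exp_ne_zero _)

/-! ### The reflection `τ ↦ -conj τ` -/

/-- `(jγ) • (J • τ) = J • (γ • τ)` where `J τ = -conj τ` and `jγ = [[a, -b], [-c, d]]`. -/
theorem jConjSL_smul_J_smul (γ : SL(2, ℤ)) (τ : ℍ) :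
    jConjSL γ • (J • τ) = J • (γ • τ) := by
  ext
  rw [coe_specialLinearGroup_apply, coe_J_smul, coe_J_smul, coe_specialLinearGroup_apply]
  simp only [jConjSL_coe, jConjMat_apply_zero_zero, jConjMat_apply_zero_one,
    jConjMat_apply_one_zero, jConjMat_apply_one_one]
  simp only [algebraMap_int_eq, eq_intCast, Int.cast_neg, Complex.ofReal_neg,
    Complex.ofReal_intCast, map_div₀, map_add, map_mul, map_intCast]
  rw [← neg_div]
  congr 1 <;> ring

/-- The reflection preserves the filter `atImInfty`. -/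
theorem tendsto_J_smul_atImInfty :
    Tendsto (fun w : ℍ => J • w) atImInfty atImInfty := by
  rw [atImInfty, tendsto_comap_iff]
  have : (UpperHalfPlane.im ∘ fun w : ℍ => J • w) = UpperHalfPlane.im := by
    funext w
    show ((J • w : ℍ) : ℂ).im = (w : ℂ).im
    rw [coe_J_smul]
    simp
  rw [this]
  exact tendsto_comap

/-- If `F` is holomorphic with derivative `a` at `-conj τ`, then `z ↦ conj (F (-conj z))` is
holomorphic at `τ` with derivative `-conj a`. -/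
theorem hasDerivAt_conj_refl {F : ℍ → ℂ} {τ : ℍ} {a : ℂ}
    (hF : HasDerivAt (F ∘ ofComplex) a ↑(J • τ)) :
    HasDerivAt ((fun z : ℍ => conj (F (J • z))) ∘ ofComplex) (-(conj a)) τ := by
  have hx : -(conj (τ : ℂ)) = ↑(J • τ) := (coe_J_smul τ).symm
  have h0 : HasDerivAt (fun w : ℂ => (F ∘ ofComplex) (-w)) (a * -1) (conj (τ : ℂ)) := by
    have hF' : HasDerivAt (F ∘ ofComplex) a (-(conj (τ : ℂ))) := by rw [hx]; exact hF
    exact HasDerivAt.comp (conj (τ : ℂ)) hF' (hasDerivAt_neg _)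
  have h1 := h0.conj_conj
  rw [Complex.conj_conj] at h1
  have h2 : conj (a * -1) = -(conj a) := by simp
  rw [h2] at h1
  refine h1.congr_of_eventuallyEq ?_
  have hopen : {z : ℂ | 0 < z.im} ∈ 𝓝 (τ : ℂ) :=
    (isOpen_lt continuous_const Complex.continuous_im).mem_nhds τ.im_pos
  filter_upwards [hopen] with z hz
  have hz' : 0 < (-(conj z)).im := by simpa using hz
  have hJ : J • (⟨z, hz⟩ : ℍ) = ⟨-(conj z), hz'⟩ := by
    ext
    rw [coe_J_smul]
  simp only [comp_apply, ofComplex_apply_of_im_pos hz, ofComplex_apply_of_im_pos hz', hJ]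

/-! ### Vanishing of a form from a symmetry of the periods of its primitive -/

/-- If `F` is a `Γ₀(N)`-equivariant primitive of `f` with limits at all cusps and with purely
imaginary periods, then `f = 0`. -/
theorem eq_zero_of_period_re_eq_zero (N : ℕ) [NeZero N] (f : ℍ → ℂ) (F : ℍ → ℂ)
    (hd : ∀ τ : ℍ, HasDerivAt (F ∘ ofComplex) (f τ) ↑τ)
    (hF : IsEquivariantPrimitive (Gamma0 N) F)
    (hlim : ∀ δ : SL(2, ℤ), ∃ L : ℂ, Tendsto (fun w : ℍ => F (δ • w)) atImInfty (𝓝 L))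
    (hre : ∀ γ : Gamma0 N, (hF.period γ).re = 0) (τ : ℍ) : f τ = 0 := by
  refine hasDerivAt_eq_zero_of_re_invariant N F ?_ ?_ hlim τ _ (hd τ)
  · intro z
    exact mdifferentiableAt_iff.mpr (hd z).differentiableAt
  · intro γ hγ
    exact ⟨hF.period ⟨γ, hγ⟩, hre ⟨γ, hγ⟩, fun z => hF.sub_eq_period ⟨γ, hγ⟩ z⟩

/-- If the periods `p` of an equivariant primitive `F` of `f` satisfy `p(γ) + s p(jγ) = 0`
(`s = ±1`, `jγ = [[a, -b], [-c, d]]`), then `f = 0`. -/
theorem eq_zero_of_period_symm (N : ℕ) [NeZero N] (f : ℍ → ℂ) (F : ℍ → ℂ)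
    (hd : ∀ τ : ℍ, HasDerivAt (F ∘ ofComplex) (f τ) ↑τ)
    (hF : IsEquivariantPrimitive (Gamma0 N) F)
    (hlim : ∀ δ : SL(2, ℤ), ∃ L : ℂ, Tendsto (fun w : ℍ => F (δ • w)) atImInfty (𝓝 L))
    (s : ℂ) (hs : s = 1 ∨ s = -1)
    (hsym : ∀ γ : Gamma0 N, hF.period γ + s * hF.period (jConjGamma0 N γ) = 0)
    (τ : ℍ) : f τ = 0 := by
  set G : ℍ → ℂ := fun z => conj (F (J • z)) with hG
  have hGd : ∀ τ : ℍ, HasDerivAt (G ∘ ofComplex) (-(conj (f (J • τ)))) τ :=
    fun τ => hasDerivAt_conj_refl (hd (J • τ))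
  have hconj_s : conj s = s := by
    rcases hs with rfl | rfl <;> simp
  have hGper : ∀ (γ : Gamma0 N) (z : ℍ),
      G ((γ : SL(2, ℤ)) • z) - G z = conj (hF.period (jConjGamma0 N γ)) := by
    intro γ z
    simp only [hG]
    rw [← jConjSL_smul_J_smul, ← map_sub]
    congr 1
    exact hF.sub_eq_period (jConjGamma0 N γ) (J • z)
  have hGlim : ∀ δ : SL(2, ℤ), ∃ L : ℂ, Tendsto (fun w : ℍ => G (δ • w)) atImInfty (𝓝 L) := by
    intro δ
    obtain ⟨L, hL⟩ := hlim (jConjSL δ)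
    refine ⟨conj L, ?_⟩
    have h1 : Tendsto (fun w : ℍ => F (jConjSL δ • (J • w))) atImInfty (𝓝 L) :=
      hL.comp tendsto_J_smul_atImInfty
    have h2 := (Complex.continuous_conj.tendsto L).comp h1
    refine h2.congr fun w => ?_
    simp only [comp_apply, hG, jConjSL_smul_J_smul]
  have key1 : f τ + s * (-(conj (f (J • τ)))) = 0 := by
    refine hasDerivAt_eq_zero_of_re_invariant N (fun z => F z + s * G z) ?_ ?_ ?_ τ _
      ((hd τ).add ((hGd τ).const_mul s))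
    · intro z
      exact mdifferentiableAt_iff.mpr ((hd z).add ((hGd z).const_mul s)).differentiableAt
    · intro γ hγ
      refine ⟨hF.period ⟨γ, hγ⟩ - conj (hF.period ⟨γ, hγ⟩), by simp, fun z => ?_⟩
      have h1 := hF.sub_eq_period ⟨γ, hγ⟩ z
      have h2 := hGper ⟨γ, hγ⟩ z
      have h3 := congrArg conj (hsym ⟨γ, hγ⟩)
      simp only [map_add, map_mul, hconj_s, map_zero] at h3
      simp only at h1 h2 ⊢
      linear_combination h1 + s * h2 + h3
    · intro δ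
      obtain ⟨L1, hL1⟩ := hlim δ
      obtain ⟨L2, hL2⟩ := hGlim δ
      exact ⟨L1 + s * L2, hL1.add (hL2.const_mul s)⟩
  have key2 : Complex.I * (f τ - s * (-(conj (f (J • τ))))) = 0 := by
    refine hasDerivAt_eq_zero_of_re_invariant N (fun z => Complex.I * (F z - s * G z)) ?_ ?_ ?_ τ _
      (((hd τ).sub ((hGd τ).const_mul s)).const_mul Complex.I)
    · intro z
      exact mdifferentiableAt_iff.mpr
        (((hd z).sub ((hGd z).const_mul s)).const_mul Complex.I).differentiableAt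
    · intro γ hγ
      refine ⟨Complex.I * (hF.period ⟨γ, hγ⟩ + conj (hF.period ⟨γ, hγ⟩)), by simp, fun z => ?_⟩
      have h1 := hF.sub_eq_period ⟨γ, hγ⟩ z
      have h2 := hGper ⟨γ, hγ⟩ z
      have h3 := congrArg conj (hsym ⟨γ, hγ⟩)
      simp only [map_add, map_mul, hconj_s, map_zero] at h3
      simp only at h1 h2 ⊢
      linear_combination Complex.I * h1 - Complex.I * s * h2 - Complex.I * h3
    · intro δ
      obtain ⟨L1, hL1⟩ := hlim δ
      obtain ⟨L2, hL2⟩ := hGlim δ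
      exact ⟨Complex.I * (L1 - s * L2), (hL1.sub (hL2.const_mul s)).const_mul Complex.I⟩
  have key2' : f τ - s * (-(conj (f (J • τ)))) = 0 :=
    (mul_eq_zero.mp key2).resolve_left Complex.I_ne_zero
  linear_combination (1 / 2 : ℂ) * key1 + (1 / 2 : ℂ) * key2'

/-! ### The period map and the Eichler–Shimura pairing -/

/-- A cusp form whose period map satisfies `P(γ) + s P(jγ) = 0` (`s = ±1`) vanishes. -/
theorem eq_zero_of_periodMap_symm (N : ℕ) [NeZero N] (f : CuspForm (Gamma0 N) 2)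
    (hprim : ∃ F : ℍ → ℂ, HasEquivariantPrimitive N f F)
    (s : ℂ) (hs : s = 1 ∨ s = -1)
    (hsym : ∀ γ : Gamma0 N, periodMap N f (Additive.ofMul γ)
      + s * periodMap N f (Additive.ofMul (jConjGamma0 N γ)) = 0) : f = 0 := by
  obtain ⟨F, hF⟩ := hprim
  obtain ⟨F₀, h₀, hP⟩ := periodMap_def N f hF
  ext τ
  refine eq_zero_of_period_symm N f F₀ h₀.1 h₀.2.2.1 h₀.2.2.2 s hs (fun γ => ?_) τ
  have := hsym γ
  rwa [hP] at this

/-- A cusp form all of whose periods are purely imaginary vanishes. -/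
theorem eq_zero_of_periodMap_re_eq_zero (N : ℕ) [NeZero N] (f : CuspForm (Gamma0 N) 2)
    (hprim : ∃ F : ℍ → ℂ, HasEquivariantPrimitive N f F)
    (hre : ∀ γ : Additive (Gamma0 N), (periodMap N f γ).re = 0) : f = 0 := by
  obtain ⟨F, hF⟩ := hprim
  obtain ⟨F₀, h₀, hP⟩ := periodMap_def N f hF
  ext τ
  refine eq_zero_of_period_re_eq_zero N f F₀ h₀.1 h₀.2.2.1 h₀.2.2.2 (fun γ => ?_) τ
  have := hre (Additive.ofMul γ)
  rwa [hP] at this

/-- The period map itself is injective. -/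
theorem periodMap_eq_zero_imp (N : ℕ) [NeZero N] (f : CuspForm (Gamma0 N) 2)
    (hprim : ∃ F : ℍ → ℂ, HasEquivariantPrimitive N f F)
    (h0 : periodMap N f = 0) : f = 0 :=
  eq_zero_of_periodMap_re_eq_zero N f hprim (fun γ => by rw [h0]; rfl)

/-- **Injectivity of the Eichler–Shimura pairing** `(f, g) ↦ (1 + ι) P f + (1 - ι) P g`. -/
theorem periodHomPair_injective_of (N : ℕ) [NeZero N]
    (hprim : ∀ f : CuspForm (Gamma0 N) 2, ∃ F : ℍ → ℂ, HasEquivariantPrimitive N f F)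
    (hlin : ExistsPeriodMapLinear N) : Function.Injective (periodHomPair N) := by
  obtain ⟨pml, hpml, hdef⟩ := periodHomPair_def N hlin
  rw [injective_iff_map_eq_zero]
  rintro ⟨f, g⟩ hfg
  have hval : ∀ γ : Gamma0 N,
      (periodMap N f (Additive.ofMul γ) + periodMap N f (Additive.ofMul (jConjGamma0 N γ)))
      + (periodMap N g (Additive.ofMul γ) - periodMap N g (Additive.ofMul (jConjGamma0 N γ)))
        = 0 := by
    intro γ
    have h1 := DFunLike.congr_fun hfg (Additive.ofMul γ)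
    rw [hdef] at h1
    simpa [hpml] using h1
  have hA : ∀ γ : Gamma0 N,
      periodMap N f (Additive.ofMul γ) + periodMap N f (Additive.ofMul (jConjGamma0 N γ)) = 0 := by
    intro γ
    have h1 := hval γ
    have h2 := hval (jConjGamma0 N γ)
    rw [jConjGamma0_jConjGamma0] at h2
    linear_combination (1 / 2 : ℂ) * h1 + (1 / 2 : ℂ) * h2
  have hB : ∀ γ : Gamma0 N,
      periodMap N g (Additive.ofMul γ) - periodMap N g (Additive.ofMul (jConjGamma0 N γ)) = 0 := by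
    intro γ
    have h1 := hval γ
    have h2 := hval (jConjGamma0 N γ)
    rw [jConjGamma0_jConjGamma0] at h2
    linear_combination (1 / 2 : ℂ) * h1 - (1 / 2 : ℂ) * h2
  have hf : f = 0 := eq_zero_of_periodMap_symm N f (hprim f) 1 (Or.inl rfl)
    (fun γ => by simpa using hA γ)
  have hg : g = 0 := eq_zero_of_periodMap_symm N g (hprim g) (-1) (Or.inr rfl)
    (fun γ => by have := hB γ; linear_combination this)
  rw [hf, hg]
  rfl

end Fermat.Agent.X0
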