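import Fermat.Agent.X0.ES.Primitive
import Fermat.Agent.X0.ES.Injective

/-!
# The Eichler–Shimura pairing is injective (packages `E3` + `E4` combined)
-/

set_option autoImplicit false

open CongruenceSubgroup ModularCurve

namespace Fermat.Agent.X0

/-- The pairing `(f, g) ↦ (1 + ι) P f + (1 - ι) P g` on `S₂(Γ₀(N))²` is injective. -/
theorem periodHomPair_injective (N : ℕ) [NeZero N] : Function.Injective (periodHomPair N) :=
  periodHomPair_injective_of N (exists_hasEquivariantPrimitive N) (existsPeriodMapLinear N)

/-- The period map is injective. -/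
theorem periodMap_injective' (N : ℕ) [NeZero N] (f : CuspForm (Gamma0 N) 2)
    (h0 : periodMap N f = 0) : f = 0 :=
  periodMap_eq_zero_imp N f (exists_hasEquivariantPrimitive N f) h0

/-- A weight two cusp form all of whose periods are purely imaginary vanishes. -/
theorem eq_zero_of_periodMap_re_eq_zero' (N : ℕ) [NeZero N] (f : CuspForm (Gamma0 N) 2)
    (hre : ∀ γ : Additive (Gamma0 N), (periodMap N f γ).re = 0) : f = 0 :=
  eq_zero_of_periodMap_re_eq_zero N f (exists_hasEquivariantPrimitive N f) hre

end Fermat.Agent.X0
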